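/-
EC / NF package: the nodal normal form `y² + g x y = x³ + b x` (`a₁ = g`, `a₂ = a₃ = a₆ = 0`,
`a₄ = b`), i.e. `y (y + g x) = x (x² + b)`, and the "Vieta" description of its group law.
(Analogue of `Fermat.Agent.S05.Leg` for a model that is usable in every residue characteristic.)

* `-(x, y) = (x, -y - g x)`;
* `T = (0, 0)` is a point of order 2 and `(x, y) + T = (b / x, -(b (y + g x)) / x²)`.
-/
import Mathlib

set_option autoImplicit false

namespace Fermat.Agent.EC.NF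

open WeierstrassCurve WeierstrassCurve.Affine

variable {K : Type*} [Field K]

/-- The Weierstrass curve has the shape `y² + a₁ x y = x³ + a₄ x`. -/
structure IsNF (W : Affine K) : Prop where
  a₂ : W.a₂ = 0
  a₃ : W.a₃ = 0
  a₆ : W.a₆ = 0

/-- The affine equation `y² + g x y = x³ + b x`. -/
def NFEq (g b x y : K) : Prop := y ^ 2 + g * x * y = x ^ 3 + b * x

/-- `(x₁,y₁)`, `(x₂,y₂)`, `(x₃, -y₃ - g x₃)` are the three intersection points (with multiplicity)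
of the line `y = l x + n` with the cubic `y² + g x y = x³ + b x`; so
`(x₃, y₃) = (x₁,y₁) + (x₂,y₂)`. -/
structure Vieta (g b x₁ y₁ x₂ y₂ x₃ y₃ l n : K) : Prop where
  line₁ : y₁ = l * x₁ + n
  line₂ : y₂ = l * x₂ + n
  line₃ : -y₃ - g * x₃ = l * x₃ + n
  e₁ : x₁ + x₂ + x₃ = l ^ 2 + g * l
  e₂ : x₁ * x₂ + x₁ * x₃ + x₂ * x₃ = b - 2 * l * n - g * n
  e₃ : x₁ * x₂ * x₃ = n ^ 2

namespace Vieta

variable {g b x₁ y₁ x₂ y₂ x₃ y₃ l n : K}

theorem l_mul_sub (h : Vieta g b x₁ y₁ x₂ y₂ x₃ y₃ l n) : l * (x₁ - x₂) = y₁ - y₂ := by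
  rw [h.line₁, h.line₂]; ring

theorem n_mul_sub (h : Vieta g b x₁ y₁ x₂ y₂ x₃ y₃ l n) : n * (x₂ - x₁) = y₁ * x₂ - y₂ * x₁ := by
  rw [h.line₁, h.line₂]; ring

/-- `(x₃, y₃)` lies on the curve. -/
theorem nfEq₃ (h : Vieta g b x₁ y₁ x₂ y₂ x₃ y₃ l n) : NFEq g b x₃ y₃ := by
  have h3 := h.line₃; have e1 := h.e₁; have e2 := h.e₂; have e3 := h.e₃
  have hy : y₃ = -(l * x₃ + n) - g * x₃ := by linear_combination -h3
  subst hy
  unfold NFEq
  linear_combination (-x₃ ^ 2) * e1 + x₃ * e2 - e3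

theorem symm (h : Vieta g b x₁ y₁ x₂ y₂ x₃ y₃ l n) : Vieta g b x₂ y₂ x₁ y₁ x₃ y₃ l n where
  line₁ := h.line₂
  line₂ := h.line₁
  line₃ := h.line₃
  e₁ := by linear_combination h.e₁
  e₂ := by linear_combination h.e₂
  e₃ := by linear_combination h.e₃

end Vieta

section Curve

variable {W : Affine K}

theorem IsNF.equation_iff (hW : IsNF W) (x y : K) :
    W.Equation x y ↔ NFEq W.a₁ W.a₄ x y := by
  rw [WeierstrassCurve.Affine.equation_iff, hW.a₂, hW.a₃, hW.a₆, NFEq]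
  constructor <;> intro h <;> linear_combination h

theorem IsNF.nfEq (hW : IsNF W) {x y : K} (h : W.Nonsingular x y) : NFEq W.a₁ W.a₄ x y :=
  (hW.equation_iff x y).mp h.1

theorem IsNF.nonsingular_iff (hW : IsNF W) (x y : K) :
    W.Nonsingular x y ↔
      NFEq W.a₁ W.a₄ x y ∧ (W.a₁ * y - (3 * x ^ 2 + W.a₄) ≠ 0 ∨ 2 * y + W.a₁ * x ≠ 0) := by
  rw [WeierstrassCurve.Affine.nonsingular_iff', hW.equation_iff, hW.a₂, hW.a₃]
  refine and_congr_right fun _ => or_congr ?_ ?_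
  · rw [ne_eq, ne_eq, not_iff_not]
    constructor <;> intro h <;> linear_combination h
  · rw [ne_eq, ne_eq, not_iff_not]
    constructor <;> intro h <;> linear_combination h

theorem IsNF.negY (hW : IsNF W) (x y : K) : W.negY x y = -y - W.a₁ * x := by
  simp [WeierstrassCurve.Affine.negY, hW.a₃]

theorem IsNF.nonsingular_neg (hW : IsNF W) {x y : K} (h : W.Nonsingular x y) :
    W.Nonsingular x (-y - W.a₁ * x) := by
  have := (WeierstrassCurve.Affine.nonsingular_neg (W' := W) x y).mpr h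
  rwa [hW.negY] at this

theorem IsNF.neg_some (hW : IsNF W) {x y : K} (h : W.Nonsingular x y) :
    -Point.some x y h = Point.some x (-y - W.a₁ * x) (hW.nonsingular_neg h) := by
  rw [Point.neg_some]
  congr 1
  exact hW.negY x y

variable [DecidableEq K]

/-- The group law in "Vieta form": if `P₁ ≠ -P₂` then `P₁ + P₂ = (x₃, y₃)` where
`(x₃, -y₃ - g x₃)` is the third intersection point of the line through `P₁`, `P₂`
(tangent if `P₁ = P₂`). -/
theorem IsNF.add_vieta (hW : IsNF W) {x₁ y₁ x₂ y₂ : K} (h₁ : W.Nonsingular x₁ y₁)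
    (h₂ : W.Nonsingular x₂ y₂) (hne : ¬(x₁ = x₂ ∧ y₁ = -y₂ - W.a₁ * x₂)) :
    ∃ (l n x₃ y₃ : K) (h₃ : W.Nonsingular x₃ y₃),
      Point.some x₁ y₁ h₁ + Point.some x₂ y₂ h₂ = Point.some x₃ y₃ h₃ ∧
      Vieta W.a₁ W.a₄ x₁ y₁ x₂ y₂ x₃ y₃ l n := by
  have hxy : ¬(x₁ = x₂ ∧ y₁ = W.negY x₂ y₂) := by rwa [hW.negY]
  have hpoly := addPolynomial_slope h₁.1 h₂.1 hxy
  rw [addPolynomial_eq, neg_inj, Cubic.prod_X_sub_C_eq, Cubic.toPoly_injective] at hpoly
  have hb := congrArg Cubic.b hpoly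
  have hc := congrArg Cubic.c hpoly
  have hd := congrArg Cubic.d hpoly
  simp only [hW.a₂, hW.a₃, hW.a₆] at hb hc hd
  set l := W.slope x₁ x₂ y₁ y₂ with hl
  have hx₃ : W.addX x₁ x₂ l = l ^ 2 + W.a₁ * l - x₁ - x₂ := by
    simp [WeierstrassCurve.Affine.addX, hW.a₂]
  have hy₃ : W.addY x₁ x₂ y₁ l = -(l * (W.addX x₁ x₂ l - x₁) + y₁) - W.a₁ * W.addX x₁ x₂ l := by
    simp [WeierstrassCurve.Affine.addY, WeierstrassCurve.Affine.negAddY,
      WeierstrassCurve.Affine.negY, hW.a₃]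
  have hline₂ : y₂ = l * x₂ + (y₁ - l * x₁) := by
    by_cases hx : x₁ = x₂
    · have hy : y₁ ≠ W.negY x₂ y₂ := fun h => hxy ⟨hx, h⟩
      have := Y_eq_of_Y_ne h₁.1 h₂.1 hx hy
      rw [← hx, ← this]; ring
    · rw [hl, slope_of_X_ne hx]
      have hx' : x₁ - x₂ ≠ 0 := sub_ne_zero.mpr hx
      field_simp
      ring
  refine ⟨l, y₁ - l * x₁, _, _, nonsingular_add h₁ h₂ hxy, Point.add_some hxy, ?_⟩
  rw [← hl]
  refine ⟨by ring, hline₂, ?_, ?_, ?_, ?_⟩
  · rw [hy₃]; ring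
  · rw [hx₃]; ring
  · rw [hx₃] at hc ⊢
    linear_combination -hc
  · rw [hx₃] at hd ⊢
    linear_combination hd

/-- `P + (-P) = 0` in coordinates. -/
theorem IsNF.add_neg_eq_zero (hW : IsNF W) {x y : K} (h₁ : W.Nonsingular x y)
    (h₂ : W.Nonsingular x (-y - W.a₁ * x)) :
    Point.some x y h₁ + Point.some x (-y - W.a₁ * x) h₂ = 0 := by
  apply Point.add_of_Y_eq rfl
  rw [hW.negY]; ring

omit [DecidableEq K] in
/-- The 2-torsion point `T = (0,0)`. -/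
theorem IsNF.nonsingular_T (hW : IsNF W) (hb : W.a₄ ≠ 0) : W.Nonsingular 0 0 := by
  rw [WeierstrassCurve.Affine.nonsingular_iff', hW.equation_iff]
  refine ⟨by simp [NFEq], Or.inl ?_⟩
  simpa using hb

/-- Translation by `T = (0,0)`: `(x,y) + T = (b/x, -(b (y + g x))/x²)` for `x ≠ 0`. -/
theorem IsNF.add_T (hW : IsNF W) {x y : K} (h : W.Nonsingular x y) (hT : W.Nonsingular 0 0)
    (hx : x ≠ 0) :
    ∃ h₃ : W.Nonsingular (W.a₄ / x) (-(W.a₄ * (y + W.a₁ * x)) / x ^ 2),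
      Point.some x y h + Point.some 0 0 hT =
        Point.some (W.a₄ / x) (-(W.a₄ * (y + W.a₁ * x)) / x ^ 2) h₃ := by
  obtain ⟨l, n, x₃, y₃, h₃, hadd, hV⟩ := hW.add_vieta h hT (fun hh => hx hh.1)
  have hn : n = 0 := by have := hV.line₂; simpa using this.symm
  have e2 := hV.e₂
  have l1 := hV.line₁
  have l3 := hV.line₃
  subst hn
  have hx₃ : x₃ = W.a₄ / x := by
    rw [eq_div_iff hx]; linear_combination e2
  have hy₃ : y₃ = -(W.a₄ * (y + W.a₁ * x)) / x ^ 2 := by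
    rw [eq_div_iff (pow_ne_zero 2 hx)]
    have hl : l = y / x := by rw [eq_div_iff hx]; linear_combination -l1
    have : y₃ = -(l * x₃) - W.a₁ * x₃ := by linear_combination -l3
    rw [this, hl, hx₃]
    field_simp
    ring
  subst hx₃ hy₃
  exact ⟨h₃, hadd⟩

theorem IsNF.T_add_T (hW : IsNF W) (hT : W.Nonsingular 0 0) :
    Point.some 0 0 hT + Point.some 0 0 hT = 0 := by
  apply Point.add_of_Y_eq rfl
  rw [hW.negY]; ring

end Curve

end Fermat.Agent.EC.NF
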