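/-
EC / NF package: the class function of the nodal normal form (definitions only).
Curve `y² + g x y = x³ + b x` with `v g = 1`, `0 < v b < 1`.
Types of points (multiplicative valuation `v`):
  Z  : the point at infinity, or `1 ≤ v x`
  M  : `v x ≤ v b`                      (this is `Z + T`, `T = (0,0)`)
  S+ : `v b < v x < 1` and `v y < v x`
  S- : `v b < v x < 1` and not S+       (then `v (y + g x) < v x`)
-/
import Fermat.Agent.EC.NF.Basic

set_option autoImplicit false

namespace Fermat.Agent.EC.NF

open WeierstrassCurve WeierstrassCurve.Affine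

variable {K : Type*} [Field K] {Γ₀ : Type*} [LinearOrderedCommGroupWithZero Γ₀]
variable {W : Affine K}

/-- The class function; values in `(v(b)², 1]`:
`1` on `Z`, `v b` on `M`, `v x` on `S+`, `v(b)² / v x` on `S-`. -/
noncomputable def cls (v : Valuation K Γ₀) : W.Point → Γ₀
  | .zero => 1
  | .some x y _ =>
      if 1 ≤ v x then 1
      else if v x ≤ v W.a₄ then v W.a₄
      else if v y < v x then v x
      else v W.a₄ ^ 2 / v x

/-- The point is of type `Z` or `S+` (a fundamental domain for translation by `T = (0,0)`). -/
def IsZS (v : Valuation K Γ₀) : W.Point → Prop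
  | .zero => True
  | .some x y _ => 1 ≤ v x ∨ (v W.a₄ < v x ∧ v x < 1 ∧ v y < v x)

end Fermat.Agent.EC.NF
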