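/-
EC / NF package (nodal normal form `y² + g x y = x³ + b x`, i.e. `y (y + g x) = x (x² + b)`),
field-level "type rules" for the chord/tangent construction.

The line `Y = l X + n` meets the cubic in `(x₁,y₁)`, `(x₂,y₂)` and a third point `(x₃, l x₃ + n)`;
the sum of the first two points is `(x₃, y₃)` with `-y₃ - g x₃ = l x₃ + n`.  The relations are

  `y₁ = l x₁ + n`, `y₂ = l x₂ + n`, `-y₃ - g x₃ = l x₃ + n`,
  `x₁ + x₂ + x₃ = l² + g l`, `x₁x₂ + x₁x₃ + x₂x₃ = b - 2 l n - g n`, `x₁x₂x₃ = n²`.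

Types of affine points (multiplicative valuation `v`, `v g = 1`, `0 < v b < 1`):
  `Z` : `1 ≤ v x`;  `S+` : `v b < v x < 1`, `v y < v x`;  `S-` : `v b < v x < 1`, `v (y + g x) < v x`.

No hypothesis on `v 2` is used: everything works in every residue characteristic.
-/
import Fermat.Agent.EC.NF.Basic
import Fermat.Agent.S05.VComp

set_option autoImplicit false

namespace Fermat.Agent.EC.NF

variable {K : Type*} [Field K] {Γ₀ : Type*} [LinearOrderedCommGroupWithZero Γ₀]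
  (v : Valuation K Γ₀) {g b x₁ y₁ x₂ y₂ x₃ y₃ l n : K}

namespace VietaRules

/-- `v 2 ≤ 1` for every valuation. -/
theorem val_two_le : v (2 : K) ≤ 1 := by
  have h : (2 : K) = 1 + 1 := by norm_num
  rw [h]
  exact v.map_add_le (le_of_eq v.map_one) (le_of_eq v.map_one)

/-- On `y² + g x y = x³ + b x` with `g`, `b` integral and `1 ≤ v x`: `v(y)² ≤ v(x)³`. -/
theorem sq_le_cube (hg : v g ≤ 1) (hb : v b ≤ 1) {x y : K} (h : NFEq g b x y)
    (hx : 1 ≤ v x) : v y ^ 2 ≤ v x ^ 3 := by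
  by_contra hcon
  rw [not_le] at hcon
  have hx0 : 0 < v x := lt_of_lt_of_le zero_lt_one hx
  have hxy : v x < v y := by
    by_contra h'
    rw [not_lt] at h'
    have : v y ^ 2 ≤ v x ^ 3 :=
      calc v y ^ 2 ≤ v x ^ 2 := pow_le_pow_left' h' 2
        _ ≤ v x ^ 3 := pow_le_pow_right' hx (by norm_num)
    exact absurd hcon (not_lt.mpr this)
  have hgx : v (g * x) < v y := by
    rw [map_mul]
    calc v g * v x ≤ 1 * v x := by gcongr
      _ = v x := one_mul _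
      _ < v y := hxy
  have hyg : v (y + g * x) = v y := v.map_add_eq_of_lt_left hgx
  have e : y * (y + g * x) = x ^ 3 + b * x := by unfold NFEq at h; linear_combination h
  have h1 : v (x ^ 3 + b * x) ≤ v x ^ 3 := by
    refine v.map_add_le (by rw [map_pow]) ?_
    rw [map_mul]
    calc v b * v x ≤ 1 * v x := by gcongr
      _ = v x ^ 1 := by rw [one_mul, pow_one]
      _ ≤ v x ^ 3 := pow_le_pow_right' hx (by norm_num)
  have h2 : v y ^ 2 = v (x ^ 3 + b * x) := by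
    rw [← e, map_mul, hyg, sq]
  rw [h2] at hcon
  exact absurd hcon (not_lt.mpr h1)

/-- On `y² + g x y = x³ + b x` with `g` integral and `v b ≤ v x ≤ 1`: `v y ≤ v x`. -/
theorem val_y_le (hg : v g ≤ 1) {x y : K} (h : NFEq g b x y)
    (hx : v x ≤ 1) (hbx : v b ≤ v x) : v y ≤ v x := by
  by_contra hcon
  rw [not_le] at hcon
  have hgx : v (g * x) < v y := by
    rw [map_mul]
    calc v g * v x ≤ 1 * v x := by gcongr
      _ = v x := one_mul _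
      _ < v y := hcon
  have hyg : v (y + g * x) = v y := v.map_add_eq_of_lt_left hgx
  have e : y * (y + g * x) = x ^ 3 + b * x := by unfold NFEq at h; linear_combination h
  have h1 : v (x ^ 3 + b * x) ≤ v x ^ 2 := by
    refine v.map_add_le ?_ ?_
    · rw [map_pow]
      exact pow_le_pow_right_of_le_one' hx (by norm_num)
    · rw [map_mul, pow_two]
      gcongr
  have h2 : v y ^ 2 = v (x ^ 3 + b * x) := by
    rw [← e, map_mul, hyg, sq]
  rw [← h2] at h1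
  have h3 : v y ≤ v x := by
    by_contra h'
    rw [not_le] at h'
    have : v x ^ 2 < v y ^ 2 := pow_lt_pow_left₀ h' zero_le (by norm_num)
    exact absurd h1 (not_le.mpr this)
  exact absurd hcon (not_lt.mpr h3)

/-- The same bound for the "other" coordinate `y + g x`. -/
theorem val_y'_le (hg : v g ≤ 1) {x y : K} (h : NFEq g b x y)
    (hx : v x ≤ 1) (hbx : v b ≤ v x) : v (y + g * x) ≤ v x := by
  refine v.map_add_le (val_y_le v hg h hx hbx) ?_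
  rw [map_mul]
  calc v g * v x ≤ 1 * v x := by gcongr
    _ = v x := one_mul _

/-- Key identity 1: `n (y₁x₂ + y₂x₁ + g x₁x₂) = x₁x₂ (b - x₁x₂)`. -/
theorem n_mul_add (hl₁ : y₁ = l * x₁ + n) (hl₂ : y₂ = l * x₂ + n)
    (he₂ : x₁ * x₂ + x₁ * x₃ + x₂ * x₃ = b - 2 * l * n - g * n)
    (he₃ : x₁ * x₂ * x₃ = n ^ 2) :
    n * (y₁ * x₂ + y₂ * x₁ + g * x₁ * x₂) = x₁ * x₂ * (b - x₁ * x₂) := by
  subst hl₁ hl₂
  linear_combination x₁ * x₂ * he₂ - (x₁ + x₂) * he₃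

/-- Key identity 2: `(y₁x₂ + y₂x₁ + g x₁x₂)(y₁x₂ - y₂x₁) = x₁x₂ (x₁ - x₂)(x₁x₂ - b)`. -/
theorem add_mul_sub (h₁ : NFEq g b x₁ y₁) (h₂ : NFEq g b x₂ y₂) :
    (y₁ * x₂ + y₂ * x₁ + g * x₁ * x₂) * (y₁ * x₂ - y₂ * x₁)
      = x₁ * x₂ * (x₁ - x₂) * (x₁ * x₂ - b) := by
  unfold NFEq at h₁ h₂
  linear_combination x₂ ^ 2 * h₁ - x₁ ^ 2 * h₂

end VietaRules

/-- `Z + Z`: if both summands have `1 ≤ v x` then so does the sum. -/
theorem vieta_Z_add_Z (hg : v g ≤ 1) (hb : v b < 1)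
    (hl₁ : y₁ = l * x₁ + n) (hl₂ : y₂ = l * x₂ + n)
    (he₂ : x₁ * x₂ + x₁ * x₃ + x₂ * x₃ = b - 2 * l * n - g * n)
    (he₃ : x₁ * x₂ * x₃ = n ^ 2)
    (h₁ : NFEq g b x₁ y₁) (h₂ : NFEq g b x₂ y₂)
    (hx₁ : 1 ≤ v x₁) (hx₂ : 1 ≤ v x₂) : 1 ≤ v x₃ := by
  have hP1 : 1 ≤ v x₁ * v x₂ := Left.one_le_mul hx₁ hx₂
  have hbx : v (b - x₁ * x₂) = v x₁ * v x₂ := by
    rw [v.map_sub_eq_of_lt_right (by rw [map_mul]; exact lt_of_lt_of_le hb hP1), map_mul]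
  have hNS : v n * v (y₁ * x₂ + y₂ * x₁ + g * x₁ * x₂) = (v x₁ * v x₂) * (v x₁ * v x₂) := by
    rw [← map_mul, VietaRules.n_mul_add hl₁ hl₂ he₂ he₃, map_mul, map_mul, hbx]
  have hU₁ := VietaRules.sq_le_cube v hg hb.le h₁ hx₁
  have hU₂ := VietaRules.sq_le_cube v hg hb.le h₂ hx₂
  have hS : v (y₁ * x₂ + y₂ * x₁ + g * x₁ * x₂) ^ 2 ≤ (v x₁ * v x₂) ^ 3 := by
    have hA : v (y₁ * x₂) ^ 2 ≤ (v x₁ * v x₂) ^ 3 := by
      rw [map_mul, mul_pow, mul_pow]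
      have : v x₂ ^ 2 ≤ v x₂ ^ 3 := pow_le_pow_right' hx₂ (by norm_num)
      gcongr
    have hB : v (y₂ * x₁) ^ 2 ≤ (v x₁ * v x₂) ^ 3 := by
      rw [map_mul, mul_pow, mul_pow, mul_comm (v x₁ ^ 3)]
      have : v x₁ ^ 2 ≤ v x₁ ^ 3 := pow_le_pow_right' hx₁ (by norm_num)
      gcongr
    have hC : v (g * x₁ * x₂) ^ 2 ≤ (v x₁ * v x₂) ^ 3 := by
      have h1 : v (g * x₁ * x₂) ≤ v x₁ * v x₂ := by
        rw [map_mul, map_mul, mul_assoc]
        calc v g * (v x₁ * v x₂) ≤ 1 * (v x₁ * v x₂) := by gcongr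
          _ = v x₁ * v x₂ := one_mul _
      calc v (g * x₁ * x₂) ^ 2 ≤ (v x₁ * v x₂) ^ 2 := pow_le_pow_left' h1 2
        _ ≤ (v x₁ * v x₂) ^ 3 := pow_le_pow_right' hP1 (by norm_num)
    rcases v.map_add' (y₁ * x₂ + y₂ * x₁) (g * x₁ * x₂) with h | h
    · rcases v.map_add' (y₁ * x₂) (y₂ * x₁) with h' | h'
      · exact le_trans (pow_le_pow_left' (le_trans h h') 2) hA
      · exact le_trans (pow_le_pow_left' (le_trans h h') 2) hB
    · exact le_trans (pow_le_pow_left' h 2) hC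
  have h3 : v x₁ * v x₂ * v x₃ = v n ^ 2 := by
    rw [← map_mul, ← map_mul, he₃, map_pow]
  exact Fermat.Agent.S05.VComp.aux_ZZ hP1 hS hNS h3

/-- `Z + S`: adding a point with `1 ≤ v x₁` to a point with `v b < v x₂ < 1` gives a point with
the same `v x` as the second one. -/
theorem vieta_Z_add_S (hg : v g ≤ 1) (hb : v b < 1)
    (hl₁ : y₁ = l * x₁ + n) (hl₂ : y₂ = l * x₂ + n)
    (he₂ : x₁ * x₂ + x₁ * x₃ + x₂ * x₃ = b - 2 * l * n - g * n)
    (he₃ : x₁ * x₂ * x₃ = n ^ 2)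
    (h₁ : NFEq g b x₁ y₁) (h₂ : NFEq g b x₂ y₂)
    (hx₁ : 1 ≤ v x₁) (hx₂ : v x₂ < 1) (hx₂' : v b < v x₂) : v x₃ = v x₂ := by
  have hV₁0 : 0 < v x₁ := lt_of_lt_of_le zero_lt_one hx₁
  have hV₂0 : 0 < v x₂ := lt_of_le_of_lt zero_le hx₂'
  have hP : v x₂ ≤ v x₁ * v x₂ := by
    calc v x₂ = 1 * v x₂ := (one_mul _).symm
      _ ≤ v x₁ * v x₂ := by gcongr
  have hsub : v (x₁ - x₂) = v x₁ := v.map_sub_eq_of_lt_left (lt_of_lt_of_le hx₂ hx₁)
  have hxb : v (x₁ * x₂ - b) = v x₁ * v x₂ := by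
    rw [v.map_sub_eq_of_lt_left (by rw [map_mul]; exact lt_of_lt_of_le hx₂' hP), map_mul]
  have hbx : v (b - x₁ * x₂) = v x₁ * v x₂ := by
    rw [v.map_sub_swap, hxb]
  have hF1 : v (y₁ * x₂ + y₂ * x₁ + g * x₁ * x₂) * v (y₁ * x₂ - y₂ * x₁)
      = v x₁ ^ 3 * v x₂ ^ 2 := by
    rw [← map_mul, VietaRules.add_mul_sub h₁ h₂, map_mul, map_mul, map_mul, hsub, hxb]
    simp only [pow_succ, pow_zero, one_mul, mul_left_comm, mul_comm]
  have hU₁ := VietaRules.sq_le_cube v hg hb.le h₁ hx₁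
  have hU₂ : v y₂ ^ 2 ≤ v x₂ ^ 2 :=
    pow_le_pow_left' (VietaRules.val_y_le v hg h₂ hx₂.le hx₂'.le) 2
  have hT1 : v (y₁ * x₂) ^ 2 ≤ v x₁ ^ 3 * v x₂ ^ 2 := by
    rw [map_mul, mul_pow]
    gcongr
  have hT2 : v (y₂ * x₁) ^ 2 ≤ v x₁ ^ 3 * v x₂ ^ 2 := by
    rw [map_mul, mul_pow, mul_comm (v x₁ ^ 3)]
    have : v x₁ ^ 2 ≤ v x₁ ^ 3 := pow_le_pow_right' hx₁ (by norm_num)
    gcongr
  have hT3 : v (g * x₁ * x₂) ^ 2 ≤ v x₁ ^ 3 * v x₂ ^ 2 := by
    have h1 : v (g * x₁ * x₂) ≤ v x₁ * v x₂ := by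
      rw [map_mul, map_mul, mul_assoc]
      calc v g * (v x₁ * v x₂) ≤ 1 * (v x₁ * v x₂) := by gcongr
        _ = v x₁ * v x₂ := one_mul _
    have : v x₁ ^ 2 ≤ v x₁ ^ 3 := pow_le_pow_right' hx₁ (by norm_num)
    calc v (g * x₁ * x₂) ^ 2 ≤ (v x₁ * v x₂) ^ 2 := pow_le_pow_left' h1 2
      _ = v x₁ ^ 2 * v x₂ ^ 2 := mul_pow _ _ _
      _ ≤ v x₁ ^ 3 * v x₂ ^ 2 := by gcongr
  have hA : v (y₁ * x₂ + y₂ * x₁ + g * x₁ * x₂) ^ 2 ≤ v x₁ ^ 3 * v x₂ ^ 2 := by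
    rcases v.map_add' (y₁ * x₂ + y₂ * x₁) (g * x₁ * x₂) with h | h
    · rcases v.map_add' (y₁ * x₂) (y₂ * x₁) with h' | h'
      · exact le_trans (pow_le_pow_left' (le_trans h h') 2) hT1
      · exact le_trans (pow_le_pow_left' (le_trans h h') 2) hT2
    · exact le_trans (pow_le_pow_left' h 2) hT3
  have hB : v (y₁ * x₂ - y₂ * x₁) ^ 2 ≤ v x₁ ^ 3 * v x₂ ^ 2 := by
    rcases le_max_iff.mp (v.map_sub (y₁ * x₂) (y₂ * x₁)) with h | h
    · exact le_trans (pow_le_pow_left' h 2) hT1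
    · exact le_trans (pow_le_pow_left' h 2) hT2
  have hF3 : v n * v (y₁ * x₂ + y₂ * x₁ + g * x₁ * x₂) = (v x₁ * v x₂) * (v x₁ * v x₂) := by
    rw [← map_mul, VietaRules.n_mul_add hl₁ hl₂ he₂ he₃, map_mul, map_mul, hbx]
  have hF4 : v x₁ * v x₂ * v x₃ = v n ^ 2 := by
    rw [← map_mul, ← map_mul, he₃, map_pow]
  exact Fermat.Agent.S05.VComp.aux_ZS hV₁0 hV₂0 hF1 hA hB hF3 hF4

/-- `S+ + S+`: both summands have `v b < v x < 1` and `v y < v x`. -/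
theorem vieta_S_add_S (hg : v g = 1)
    (hl₁ : y₁ = l * x₁ + n) (hl₂ : y₂ = l * x₂ + n) (hl₃ : -y₃ - g * x₃ = l * x₃ + n)
    (he₂ : x₁ * x₂ + x₁ * x₃ + x₂ * x₃ = b - 2 * l * n - g * n)
    (he₃ : x₁ * x₂ * x₃ = n ^ 2)
    (hx₁ : v x₁ < 1) (hx₁' : v b < v x₁) (hx₂ : v x₂ < 1) (hx₂' : v b < v x₂)
    (hs₁ : v y₁ < v x₁) (hs₂ : v y₂ < v x₂) :
    (v b < v (x₁ * x₂) → v x₃ = v (x₁ * x₂) ∧ v y₃ < v x₃) ∧
    (v (x₁ * x₂) < v b → v x₃ * v (x₁ * x₂) = v b ^ 2 ∧ v (y₃ + g * x₃) < v x₃) ∧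
    (v (x₁ * x₂) = v b → v x₃ ≤ v b) := by
  have hx₁0 : 0 < v x₁ := lt_of_le_of_lt zero_le hx₁'
  have hx₂0 : 0 < v x₂ := lt_of_le_of_lt zero_le hx₂'
  have h12 : v (x₁ * x₂) = v x₁ * v x₂ := map_mul _ _ _
  have hX0 : 0 < v (x₁ * x₂) := by rw [h12]; exact mul_pos hx₁0 hx₂0
  have h12lt : v (x₁ * x₂) < v x₁ := by
    rw [h12]
    calc v x₁ * v x₂ < v x₁ * 1 := mul_lt_mul_of_pos_left hx₂ hx₁0
      _ = v x₁ := mul_one _
  -- the quantity `A = y₁ x₂ + y₂ x₁ + g x₁ x₂` has the valuation of `x₁ x₂`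
  have hA : v (y₁ * x₂ + y₂ * x₁ + g * x₁ * x₂) = v (x₁ * x₂) := by
    have hgx : v (g * x₁ * x₂) = v (x₁ * x₂) := by
      rw [mul_assoc, map_mul, hg, one_mul]
    have hsm : v (y₁ * x₂ + y₂ * x₁) < v (g * x₁ * x₂) := by
      rw [hgx, h12]
      apply v.map_add_lt
      · rw [map_mul]; exact mul_lt_mul_of_pos_right hs₁ hx₂0
      · rw [map_mul, mul_comm (v x₁)]; exact mul_lt_mul_of_pos_right hs₂ hx₁0
    rw [v.map_add_eq_of_lt_right hsm, hgx]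
  -- `v n = v (b - x₁ x₂)`
  have hn : v n = v (b - x₁ * x₂) := by
    have e := congrArg v (VietaRules.n_mul_add hl₁ hl₂ he₂ he₃)
    rw [map_mul, map_mul, hA, mul_comm] at e
    exact mul_left_cancel₀ hX0.ne' e
  -- `v x₃ * v (x₁ x₂) = v n ^ 2`
  have hx₃ : v x₃ * v (x₁ * x₂) = v n ^ 2 := by
    have e := congrArg v he₃
    rw [map_mul, map_pow, mul_comm] at e
    exact e
  -- `v n < v x₁`
  have hnx : v n < v x₁ := by
    rw [hn]
    exact v.map_sub_lt hx₁' h12lt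
  -- `v l < 1`
  have hl : v l < 1 := by
    have e : l * x₁ = y₁ - n := by rw [hl₁]; ring
    have h1 : v (l * x₁) < v x₁ := by rw [e]; exact v.map_sub_lt hs₁ hnx
    rw [map_mul] at h1
    by_contra hcon
    rw [not_lt] at hcon
    have : v x₁ ≤ v l * v x₁ := by
      calc v x₁ = 1 * v x₁ := (one_mul _).symm
        _ ≤ v l * v x₁ := by gcongr
    exact absurd h1 (not_lt.mpr this)
  refine ⟨fun hlt => ?_, fun hlt => ?_, fun heq => ?_⟩
  · -- case (i): `v b < v (x₁ x₂)`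
    have hn' : v n = v (x₁ * x₂) := by rw [hn, v.map_sub_eq_of_lt_right hlt]
    have hx₃' : v x₃ = v (x₁ * x₂) := by
      rw [hn', sq] at hx₃
      exact mul_right_cancel₀ hX0.ne' hx₃
    refine ⟨hx₃', ?_⟩
    have hx₃0 : 0 < v x₃ := by rw [hx₃']; exact hX0
    -- `v (n + g x₃) < v x₃`
    have h1 : v (x₁ * x₂ + g * n) < v (x₁ * x₂) := by
      have e : x₁ * x₂ + g * n = b - 2 * l * n - x₃ * (x₁ + x₂) := by linear_combination he₂
      rw [e]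
      apply v.map_sub_lt (v.map_sub_lt hlt ?_) ?_
      · rw [map_mul, map_mul, hn']
        calc v 2 * v l * v (x₁ * x₂) ≤ 1 * v l * v (x₁ * x₂) := by
              gcongr; exact VietaRules.val_two_le v
          _ = v l * v (x₁ * x₂) := by rw [one_mul]
          _ < 1 * v (x₁ * x₂) := mul_lt_mul_of_pos_right hl hX0
          _ = v (x₁ * x₂) := one_mul _
      · rw [map_mul, hx₃']
        have : v (x₁ + x₂) < 1 := v.map_add_lt hx₁ hx₂
        calc v (x₁ * x₂) * v (x₁ + x₂) < v (x₁ * x₂) * 1 := mul_lt_mul_of_pos_left this hX0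
          _ = v (x₁ * x₂) := mul_one _
    have h2 : v (n + g * x₃) < v x₃ := by
      have e : x₁ * x₂ * (n + g * x₃) = n * (x₁ * x₂ + g * n) := by linear_combination g * he₃
      have e' : v (x₁ * x₂) * v (n + g * x₃) = v (x₁ * x₂) * v (x₁ * x₂ + g * n) := by
        rw [← map_mul, e, map_mul, hn']
      have h3 : v (x₁ * x₂) * v (n + g * x₃) < v (x₁ * x₂) * v (x₁ * x₂) := by
        rw [e']; exact mul_lt_mul_of_pos_left h1 hX0
      rw [hx₃']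
      exact lt_of_mul_lt_mul_left h3 zero_le
    have e : y₃ = -(l * x₃) - (n + g * x₃) := by linear_combination -hl₃
    rw [e]
    apply v.map_sub_lt _ h2
    rw [Valuation.map_neg, map_mul]
    calc v l * v x₃ < 1 * v x₃ := mul_lt_mul_of_pos_right hl hx₃0
      _ = v x₃ := one_mul _
  · -- case (ii): `v (x₁ x₂) < v b`
    have hb0 : 0 < v b := lt_of_le_of_lt zero_le hlt
    have hn' : v n = v b := by rw [hn, v.map_sub_eq_of_lt_left hlt]
    have hx₃' : v x₃ * v (x₁ * x₂) = v b ^ 2 := by rw [hx₃, hn']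
    refine ⟨hx₃', ?_⟩
    have hx₃0 : 0 < v x₃ := by
      rcases eq_or_lt_of_le (zero_le : 0 ≤ v x₃) with h0 | h0
      · rw [← h0, zero_mul] at hx₃'
        exact absurd hx₃'.symm (pow_ne_zero 2 hb0.ne')
      · exact h0
    have hbx₃ : v b < v x₃ := by
      by_contra hcon
      have hle : v x₃ ≤ v b := not_lt.mp hcon
      have : v x₃ * v (x₁ * x₂) < v b ^ 2 := by
        rw [sq]
        calc v x₃ * v (x₁ * x₂) ≤ v b * v (x₁ * x₂) := mul_le_mul_of_nonneg_right hle zero_le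
          _ < v b * v b := mul_lt_mul_of_pos_left hlt hb0
      exact this.ne hx₃'
    have e : y₃ + g * x₃ = -(l * x₃) - n := by linear_combination -hl₃
    rw [e]
    apply v.map_sub_lt
    · rw [Valuation.map_neg, map_mul]
      calc v l * v x₃ < 1 * v x₃ := mul_lt_mul_of_pos_right hl hx₃0
        _ = v x₃ := one_mul _
    · rw [hn']; exact hbx₃
  · -- case (iii): `v (x₁ x₂) = v b`
    have hn' : v n ≤ v b := by
      rw [hn]
      exact v.map_sub_le (le_refl _) heq.le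
    have h3 : v x₃ * v (x₁ * x₂) ≤ v b * v (x₁ * x₂) := by
      rw [hx₃, sq, heq]
      exact mul_le_mul' hn' hn'
    exact le_of_mul_le_mul_right h3 hX0

end Fermat.Agent.EC.NF
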