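/-
EC / NF package: on the nodal normal form `y² + g x y = x³ + b x` (`v g = 1`, `0 < v b < 1`) the
class function `cls` is a homomorphism modulo even powers of `v b` (`cls_add`, `cls_nsmul`,
`cls_neg`), takes values in `(v(b)², 1]`, and `cls P = 1` exactly for the points with
nonsingular reduction (`cls_eq_one_iff`).  Consequences: `cls_sub_eq_one`, `torsion_cls`.
No hypothesis on the residue characteristic.
-/
import Fermat.Agent.EC.NF.Basic
import Fermat.Agent.EC.NF.ClsDef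
import Fermat.Agent.EC.NF.ClsT
import Fermat.Agent.EC.NF.ClsZS
import Fermat.Agent.S05.ClsHom

set_option autoImplicit false

namespace Fermat.Agent.EC.NF

open WeierstrassCurve WeierstrassCurve.Affine Fermat.Agent.S05

variable {K : Type*} [Field K] {Γ₀ : Type*} [LinearOrderedCommGroupWithZero Γ₀]
  (v : Valuation K Γ₀) {W : Affine K} [DecidableEq K]

/-- `cls` is additive up to even powers of `v b`. -/
theorem cls_add (hW : IsNF W) (hg : v W.a₁ = 1) (hb : v W.a₄ < 1)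
    (hb0 : W.a₄ ≠ 0) (P Q : W.Point) :
    ∃ k : ℤ, cls v (P + Q) = cls v P * cls v Q * v W.a₄ ^ (2 * k) := by
  have hc : v W.a₄ ≠ 0 := (Valuation.ne_zero_iff v).mpr hb0
  have hT := hW.nonsingular_T hb0
  have hTT : Point.some 0 0 hT + Point.some 0 0 hT = 0 := hW.T_add_T hT
  have hAT : ∀ R : W.Point,
      ClsRel (v W.a₄) (cls v (R + Point.some 0 0 hT)) (cls v R * v W.a₄) :=
    fun R => cls_add_T v hW hg hb hb0 hT R
  obtain ⟨P₀, hP₀, hP⟩ := exists_decomp v hW hg hb hb0 hT P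
  obtain ⟨Q₀, hQ₀, hQ⟩ := exists_decomp v hW hg hb hb0 hT Q
  have h00 : cls v (P₀ + Q₀) = cls v P₀ * cls v Q₀ :=
    cls_add_ZS v hW hg hb hP₀ hQ₀
  change ClsRel (v W.a₄) _ _
  rcases hP with rfl | rfl <;> rcases hQ with rfl | rfl
  · exact .of_eq h00
  · rw [← add_assoc]
    refine (hAT _).trans hc ?_
    rw [h00, mul_assoc]
    exact (ClsRel.refl _ _).mul hc ((hAT Q₀).symm hc)
  · rw [add_right_comm]
    refine (hAT _).trans hc ?_
    rw [h00, mul_right_comm]
    exact ((hAT P₀).symm hc).mul hc (.refl _ _)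
  · have hsum : P₀ + Point.some 0 0 hT + (Q₀ + Point.some 0 0 hT) = P₀ + Q₀ := by
      rw [add_add_add_comm, hTT, add_zero]
    rw [hsum, h00]
    refine ClsRel.symm hc (((hAT P₀).mul hc (hAT Q₀)).trans hc ?_)
    rw [mul_mul_mul_comm]
    have := (ClsRel.refl (v W.a₄) (cls v P₀ * cls v Q₀)).mul hc (ClsRel.mul_self _)
    rwa [mul_one] at this

/-- `cls (m • P) = cls P ^ m` up to even powers of `v b`. -/
theorem cls_nsmul (hW : IsNF W) (hg : v W.a₁ = 1) (hb : v W.a₄ < 1)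
    (hb0 : W.a₄ ≠ 0) (m : ℕ) (P : W.Point) :
    ∃ k : ℤ, cls v (m • P) = cls v P ^ m * v W.a₄ ^ (2 * k) := by
  have hc : v W.a₄ ≠ 0 := (Valuation.ne_zero_iff v).mpr hb0
  change ClsRel (v W.a₄) _ _
  induction m with
  | zero =>
    rw [zero_smul, pow_zero]
    exact .of_eq rfl
  | succ m ih =>
    rw [succ_nsmul, pow_succ]
    exact ClsRel.trans hc (cls_add v hW hg hb hb0 (m • P) P) (ih.mul hc (.refl _ _))

omit [DecidableEq K] in
/-- `cls P ≤ 1`. -/
theorem cls_le_one (hb : v W.a₄ < 1) (P : W.Point) : cls v P ≤ 1 := by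
  rcases P with _ | ⟨x, y, h⟩
  · exact le_refl _
  · simp only [cls]
    split_ifs with h1 h2 h3
    · exact le_refl _
    · exact hb.le
    · exact (not_le.mp h1).le
    · have hx0 : 0 < v x := lt_of_le_of_lt zero_le (not_le.mp h2)
      rw [div_le_one₀ hx0, sq]
      calc v W.a₄ * v W.a₄ ≤ v W.a₄ * 1 := by gcongr
        _ = v W.a₄ := mul_one _
        _ ≤ v x := (not_le.mp h2).le

omit [DecidableEq K] in
/-- `v(b)² < cls P`. -/
theorem sq_lt_cls (hb : v W.a₄ < 1) (hb0 : W.a₄ ≠ 0) (P : W.Point) : v W.a₄ ^ 2 < cls v P := by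
  have hc : v W.a₄ ≠ 0 := (Valuation.ne_zero_iff v).mpr hb0
  have hbpos : 0 < v W.a₄ := zero_lt_iff.mpr hc
  have hsq : v W.a₄ ^ 2 < v W.a₄ := by
    rw [sq]
    calc v W.a₄ * v W.a₄ < v W.a₄ * 1 := mul_lt_mul_of_pos_left hb hbpos
      _ = v W.a₄ := mul_one _
  rcases P with _ | ⟨x, y, h⟩
  · exact lt_trans hsq hb
  · simp only [cls]
    split_ifs with h1 h2 h3
    · exact lt_trans hsq hb
    · exact hsq
    · exact lt_trans hsq (not_le.mp h2)
    · have hx0 : 0 < v x := lt_of_le_of_lt zero_le (not_le.mp h2)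
      rw [lt_div_iff₀ hx0]
      calc v W.a₄ ^ 2 * v x < v W.a₄ ^ 2 * 1 :=
            mul_lt_mul_of_pos_left (not_le.mp h1) (pow_pos hbpos 2)
        _ = v W.a₄ ^ 2 := mul_one _

omit [DecidableEq K] in
/-- `cls P = 1` exactly when `P` is the point at infinity or has `1 ≤ v x`
(nonsingular reduction). -/
theorem cls_eq_one_iff (hb : v W.a₄ < 1) (hb0 : W.a₄ ≠ 0) (P : W.Point) :
    cls v P = 1 ↔ P = 0 ∨ ∃ (x y : K) (h : W.Nonsingular x y), P = Point.some x y h ∧ 1 ≤ v x := by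
  have hc : v W.a₄ ≠ 0 := (Valuation.ne_zero_iff v).mpr hb0
  have hbpos : 0 < v W.a₄ := zero_lt_iff.mpr hc
  rcases P with _ | ⟨x, y, h⟩
  · exact ⟨fun _ => Or.inl rfl, fun _ => rfl⟩
  · constructor
    · intro hcls
      right
      refine ⟨x, y, h, rfl, ?_⟩
      by_contra h1
      simp only [cls] at hcls
      rw [if_neg h1] at hcls
      by_cases h2 : v x ≤ v W.a₄
      · rw [if_pos h2] at hcls
        exact absurd hcls hb.ne
      · rw [if_neg h2] at hcls
        by_cases h3 : v y < v x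
        · rw [if_pos h3] at hcls
          exact h1 hcls.ge
        · rw [if_neg h3] at hcls
          have hx0 : 0 < v x := lt_of_le_of_lt zero_le (not_le.mp h2)
          rw [div_eq_one_iff_eq hx0.ne'] at hcls
          have : v W.a₄ ^ 2 < v x := by
            rw [sq]
            calc v W.a₄ * v W.a₄ < v W.a₄ * 1 := mul_lt_mul_of_pos_left hb hbpos
              _ = v W.a₄ := mul_one _
              _ < v x := not_le.mp h2
          exact absurd hcls this.ne
    · rintro (h0 | ⟨x', y', h', hP, hx'⟩)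
      · exact absurd h0 (by simp)
      · rw [hP]
        exact ClsZS.cls_some_Z v h' hx'

omit [DecidableEq K] in
/-- The only even power of `v b` in the range `(v(b)², 1]` of `cls` is `1`. -/
theorem cls_eq_one_of_zpow (hb : v W.a₄ < 1) (hb0 : W.a₄ ≠ 0) (P : W.Point) (k : ℤ)
    (h : cls v P = v W.a₄ ^ (2 * k)) : cls v P = 1 := by
  have hc : v W.a₄ ≠ 0 := (Valuation.ne_zero_iff v).mpr hb0
  have hbpos : 0 < v W.a₄ := zero_lt_iff.mpr hc
  have h1 := cls_le_one v hb P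
  have h2 := sq_lt_cls v hb hb0 P
  rw [h] at h1 h2 ⊢
  rcases lt_trichotomy k 0 with hk | hk | hk
  · exfalso
    have hk' : 2 * k < 0 := by omega
    have : 1 < v W.a₄ ^ (2 * k) := one_lt_zpow_of_neg₀ hbpos hb hk'
    exact absurd h1 (not_le.mpr this)
  · rw [hk]; simp
  · exfalso
    have hk' : (2 : ℤ) ≤ 2 * k := by omega
    have : v W.a₄ ^ (2 * k) ≤ v W.a₄ ^ (2 : ℤ) := zpow_le_zpow_right_of_le_one₀ hbpos hb.le hk'
    rw [zpow_ofNat] at this
    exact absurd h2 (not_lt.mpr this)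

/-- `cls (-P) * cls P` is an even power of `v b`. -/
theorem cls_neg (hW : IsNF W) (hg : v W.a₁ = 1) (hb : v W.a₄ < 1)
    (hb0 : W.a₄ ≠ 0) (P : W.Point) : ∃ k : ℤ, cls v (-P) * cls v P = v W.a₄ ^ (2 * k) := by
  have hc : v W.a₄ ≠ 0 := (Valuation.ne_zero_iff v).mpr hb0
  obtain ⟨k, hk⟩ := cls_add v hW hg hb hb0 (-P) P
  rw [neg_add_cancel] at hk
  have h0 : cls v (0 : W.Point) = 1 := rfl
  rw [h0] at hk
  refine ⟨-k, ?_⟩
  rw [mul_neg, zpow_neg]
  exact eq_inv_of_mul_eq_one_left hk.symm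

/-- If `P` and `Q` have the same class then `P - Q` has class `1`, i.e. nonsingular reduction. -/
theorem cls_sub_eq_one (hW : IsNF W) (hg : v W.a₁ = 1) (hb : v W.a₄ < 1)
    (hb0 : W.a₄ ≠ 0) {P Q : W.Point} (h : cls v P = cls v Q) : cls v (P - Q) = 1 := by
  have hc : v W.a₄ ≠ 0 := (Valuation.ne_zero_iff v).mpr hb0
  obtain ⟨k, hk⟩ := cls_add v hW hg hb hb0 P (-Q)
  obtain ⟨j, hj⟩ := cls_neg v hW hg hb hb0 Q
  rw [← sub_eq_add_neg, h, mul_comm (cls v Q), hj, ← zpow_add₀ hc, ← mul_add] at hk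
  exact cls_eq_one_of_zpow v hb hb0 _ _ hk

/-- The class of a torsion point: `cls P ^ m` is an even power of `v b` when `m • P = 0`. -/
theorem torsion_cls (hW : IsNF W) (hg : v W.a₁ = 1) (hb : v W.a₄ < 1)
    (hb0 : W.a₄ ≠ 0) {m : ℕ} {P : W.Point} (hP : m • P = 0) :
    ∃ k : ℤ, cls v P ^ m = v W.a₄ ^ (2 * k) := by
  have hc : v W.a₄ ≠ 0 := (Valuation.ne_zero_iff v).mpr hb0
  obtain ⟨k, hk⟩ := cls_nsmul v hW hg hb hb0 m P
  rw [hP] at hk
  have h0 : cls v (0 : W.Point) = 1 := rfl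
  rw [h0] at hk
  refine ⟨-k, ?_⟩
  rw [mul_neg, zpow_neg]
  exact eq_inv_of_mul_eq_one_left hk.symm

end Fermat.Agent.EC.NF
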