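/-
EC library, prime 2: the kernel of reduction has no torsion of odd order in residue characteristic 2.

For ANY Weierstrass curve with integral coefficients over a valued field `(K, v)` with `v 2 < 1`:
a point `P ≠ 0` with `1 < v (x P)` is not killed by an odd integer.

Proof: the duplication formula `x(2Q) * Ψ₂Sq(x) = x⁴ - b₄ x² - 2 b₆ x - b₈` gives
`v (x (2Q)) > v (x Q)` whenever `1 < v (x Q)` and `2Q ≠ 0`; and `2 ^ φ(n) • P = P`.
-/
import Fermat.Agent.S51.Doubling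

set_option autoImplicit false

namespace Fermat.Agent.EC.NF

open WeierstrassCurve WeierstrassCurve.Affine Fermat.Agent.S51.Doubling

variable {K : Type*} [Field K] {Γ₀ : Type*} [LinearOrderedCommGroupWithZero Γ₀]

/-- Integrality of the coefficients of a Weierstrass curve with respect to a valuation. -/
structure IsIntegralModel (v : Valuation K Γ₀) (W : Affine K) : Prop where
  a₁ : v W.a₁ ≤ 1
  a₂ : v W.a₂ ≤ 1
  a₃ : v W.a₃ ≤ 1
  a₄ : v W.a₄ ≤ 1
  a₆ : v W.a₆ ≤ 1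

namespace IsIntegralModel

variable {v : Valuation K Γ₀} {W : Affine K}

theorem natCast_le (v : Valuation K Γ₀) (n : ℕ) : v (n : K) ≤ 1 := by
  have : (n : K) ∈ v.integer := natCast_mem _ n
  exact this

theorem b₂ (h : IsIntegralModel v W) : v W.b₂ ≤ 1 := by
  have h1 : W.a₁ ∈ v.integer := h.a₁
  have h2 : W.a₂ ∈ v.integer := h.a₂
  have h4 : (4 : K) ∈ v.integer := by exact_mod_cast natCast_le v 4
  have : W.b₂ ∈ v.integer := by
    rw [WeierstrassCurve.b₂]
    exact add_mem (pow_mem h1 2) (mul_mem h4 h2)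
  exact this

theorem b₄ (h : IsIntegralModel v W) : v W.b₄ ≤ 1 := by
  have h1 : W.a₁ ∈ v.integer := h.a₁
  have h3 : W.a₃ ∈ v.integer := h.a₃
  have h4 : W.a₄ ∈ v.integer := h.a₄
  have h2' : (2 : K) ∈ v.integer := by exact_mod_cast natCast_le v 2
  have : W.b₄ ∈ v.integer := by
    rw [WeierstrassCurve.b₄]
    exact add_mem (mul_mem h2' h4) (mul_mem h1 h3)
  exact this

theorem b₆ (h : IsIntegralModel v W) : v W.b₆ ≤ 1 := by
  have h3 : W.a₃ ∈ v.integer := h.a₃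
  have h6 : W.a₆ ∈ v.integer := h.a₆
  have h4' : (4 : K) ∈ v.integer := by exact_mod_cast natCast_le v 4
  have : W.b₆ ∈ v.integer := by
    rw [WeierstrassCurve.b₆]
    exact add_mem (pow_mem h3 2) (mul_mem h4' h6)
  exact this

theorem b₈ (h : IsIntegralModel v W) : v W.b₈ ≤ 1 := by
  have h1 : W.a₁ ∈ v.integer := h.a₁
  have h2 : W.a₂ ∈ v.integer := h.a₂
  have h3 : W.a₃ ∈ v.integer := h.a₃
  have h4 : W.a₄ ∈ v.integer := h.a₄
  have h6 : W.a₆ ∈ v.integer := h.a₆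
  have h4' : (4 : K) ∈ v.integer := by exact_mod_cast natCast_le v 4
  have : W.b₈ ∈ v.integer := by
    rw [WeierstrassCurve.b₈]
    exact sub_mem (add_mem (sub_mem (add_mem (mul_mem (pow_mem h1 2) h6)
      (mul_mem (mul_mem h4' h2) h6)) (mul_mem (mul_mem h1 h3) h4)) (mul_mem h2 (pow_mem h3 2)))
      (pow_mem h4 2)
  exact this

end IsIntegralModel

section Doubling

variable {v : Valuation K Γ₀} {W : Affine K} [DecidableEq K]

omit [DecidableEq K] in
/-- Pure valuation estimate behind the doubling step. -/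
theorem val_lt_of_doubling {x x₂ b₂ b₄ b₆ b₈ : K} (h2 : v (2 : K) < 1)
    (hb₂ : v b₂ ≤ 1) (hb₄ : v b₄ ≤ 1) (hb₆ : v b₆ ≤ 1) (hb₈ : v b₈ ≤ 1) (hx : 1 < v x)
    (hD : 4 * x ^ 3 + b₂ * x ^ 2 + 2 * b₄ * x + b₆ ≠ 0)
    (h : (x - x₂) * (4 * x ^ 3 + b₂ * x ^ 2 + 2 * b₄ * x + b₆) =
      3 * x ^ 4 + b₂ * x ^ 3 + 3 * b₄ * x ^ 2 + 3 * b₆ * x + b₈) :
    v x < v x₂ := by
  set D := 4 * x ^ 3 + b₂ * x ^ 2 + 2 * b₄ * x + b₆ with hDdef
  have hx0 : 0 < v x := lt_trans zero_lt_one hx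
  have h2le : v (2 : K) ≤ 1 := h2.le
  have h4 : v (4 : K) < 1 := by
    have : (4 : K) = 2 * 2 := by norm_num
    rw [this, map_mul]
    calc v 2 * v 2 ≤ 1 * v 2 := by gcongr
      _ = v 2 := one_mul _
      _ < 1 := h2
  -- powers of `v x`
  have hx12 : v x < v x ^ 2 := by
    have := pow_lt_pow_right₀ hx (by norm_num : 1 < 2)
    rwa [pow_one] at this
  have hx23 : v x ^ 2 < v x ^ 3 := pow_lt_pow_right₀ hx (by norm_num)
  have hx34 : v x ^ 3 < v x ^ 4 := pow_lt_pow_right₀ hx (by norm_num)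
  have hx01 : 1 < v x ^ 2 := lt_trans hx hx12
  -- numerator
  have hN : x₂ * D = x ^ 4 - b₄ * x ^ 2 - 2 * b₆ * x - b₈ := by
    rw [hDdef]; linear_combination -h
  have hvN : v (x ^ 4 - b₄ * x ^ 2 - 2 * b₆ * x - b₈) = v x ^ 4 := by
    have e1 : v (b₄ * x ^ 2) < v (x ^ 4) := by
      rw [map_mul, map_pow, map_pow]
      calc v b₄ * v x ^ 2 ≤ 1 * v x ^ 2 := by gcongr
        _ = v x ^ 2 := one_mul _
        _ < v x ^ 4 := lt_trans hx23 hx34
    have e2 : v (2 * b₆ * x) < v (x ^ 4) := by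
      rw [map_mul, map_mul, map_pow]
      calc v 2 * v b₆ * v x ≤ 1 * 1 * v x := by gcongr
        _ = v x := by rw [one_mul, one_mul]
        _ < v x ^ 4 := lt_trans hx12 (lt_trans hx23 hx34)
    have e3 : v b₈ < v (x ^ 4) := by
      rw [map_pow]
      exact lt_of_le_of_lt hb₈ (lt_trans hx01 (lt_trans hx23 hx34))
    have s1 : v (x ^ 4 - b₄ * x ^ 2) = v (x ^ 4) := Valuation.map_sub_eq_of_lt_left v e1
    have s2 : v (x ^ 4 - b₄ * x ^ 2 - 2 * b₆ * x) = v (x ^ 4) := by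
      rw [← s1] at e2 ⊢
      rw [Valuation.map_sub_eq_of_lt_left v e2]
    have s3 : v (x ^ 4 - b₄ * x ^ 2 - 2 * b₆ * x - b₈) = v (x ^ 4) := by
      rw [← s2] at e3 ⊢
      rw [Valuation.map_sub_eq_of_lt_left v e3]
    rw [s3, map_pow]
  -- denominator
  have hvD : v D < v x ^ 3 := by
    have t1 : v (4 * x ^ 3) < v x ^ 3 := by
      rw [map_mul, map_pow]
      calc v 4 * v x ^ 3 < 1 * v x ^ 3 := by
            apply mul_lt_mul_of_pos_right h4 (pow_pos hx0 3)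
        _ = v x ^ 3 := one_mul _
    have t2 : v (b₂ * x ^ 2) < v x ^ 3 := by
      rw [map_mul, map_pow]
      calc v b₂ * v x ^ 2 ≤ 1 * v x ^ 2 := by gcongr
        _ = v x ^ 2 := one_mul _
        _ < v x ^ 3 := hx23
    have t3 : v (2 * b₄ * x) < v x ^ 3 := by
      rw [map_mul, map_mul]
      calc v 2 * v b₄ * v x ≤ 1 * 1 * v x := by gcongr
        _ = v x := by rw [one_mul, one_mul]
        _ < v x ^ 3 := lt_trans hx12 hx23
    have t4 : v b₆ < v x ^ 3 := lt_of_le_of_lt hb₆ (lt_trans hx01 hx23)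
    rw [hDdef]
    exact Valuation.map_add_lt v (Valuation.map_add_lt v (Valuation.map_add_lt v t1 t2) t3) t4
  have hD0 : 0 < v D := by
    rw [Valuation.pos_iff]; exact hD
  by_contra hcon
  rw [not_lt] at hcon
  have : v (x₂ * D) < v x ^ 4 := by
    rw [map_mul]
    calc v x₂ * v D ≤ v x * v D := by gcongr
      _ < v x * v x ^ 3 := mul_lt_mul_of_pos_left hvD hx0
      _ = v x ^ 4 := by rw [← pow_succ']
  rw [hN, hvN] at this
  exact lt_irrefl _ this

/-- The doubling step: `1 < v (x Q)`, `2 • Q ≠ 0` imply `v (x Q) < v (x (2 • Q))`. -/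
theorem val_xc_lt_val_xc_two_nsmul (hW : IsIntegralModel v W) (h2 : v (2 : K) < 1)
    {Q : W.Point} (hQ : Q ≠ 0) (h2Q : 2 • Q ≠ 0) (hx : 1 < v (xc W Q)) :
    v (xc W Q) < v (xc W (2 • Q)) := by
  have key := xc_two_nsmul_mul W hQ h2Q
  have hD := eval_Ψ₂Sq_xc_ne_zero W hQ h2Q
  rw [eval_Ψ₂Sq] at key hD
  rw [eval_Ψ₃] at key
  exact val_lt_of_doubling h2 hW.b₂ hW.b₄ hW.b₆ hW.b₈ hx hD key

/-- **No odd torsion in the kernel of reduction in residue characteristic 2.** -/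
theorem no_odd_torsion_of_one_lt (hW : IsIntegralModel v W) (h2 : v (2 : K) < 1)
    {P : W.Point} (hP : P ≠ 0) (hx : 1 < v (xc W P)) {n : ℕ} (hn : Odd n) (hnP : n • P = 0) :
    False := by
  have hcop : ∀ k : ℕ, Nat.Coprime (2 ^ k) n := fun k =>
    Nat.Coprime.pow_left k (Nat.coprime_two_left.mpr hn)
  -- multiples by powers of two are nonzero
  have hne : ∀ k : ℕ, (2 ^ k) • P ≠ 0 := by
    intro k h0
    have h1 : addOrderOf P ∣ 2 ^ k := addOrderOf_dvd_of_nsmul_eq_zero h0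
    have h2' : addOrderOf P ∣ n := addOrderOf_dvd_of_nsmul_eq_zero hnP
    have h3 : addOrderOf P = 1 := Nat.eq_one_of_dvd_coprimes (hcop k) h1 h2'
    exact hP (AddMonoid.addOrderOf_eq_one_iff.mp h3)
  -- strict growth along doubling
  have hstep : ∀ k : ℕ, 1 < v (xc W ((2 ^ k) • P)) ∧
      v (xc W P) ≤ v (xc W ((2 ^ k) • P)) := by
    intro k
    induction k with
    | zero => simpa using hx
    | succ k ih =>
      have e : (2 ^ (k + 1)) • P = 2 • ((2 ^ k) • P) := by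
        rw [pow_succ, mul_nsmul]
      have h2Q : 2 • ((2 ^ k) • P) ≠ 0 := by rw [← e]; exact hne (k + 1)
      have hlt := val_xc_lt_val_xc_two_nsmul hW h2 (hne k) h2Q ih.1
      rw [e]
      exact ⟨lt_trans ih.1 hlt, le_trans ih.2 hlt.le⟩
  have hnpos : 0 < n := hn.pos
  have hφ : 0 < Nat.totient n := Nat.totient_pos.mpr hnpos
  -- `2 ^ φ(n) • P = P`
  have hmod : 2 ^ Nat.totient n ≡ 1 [MOD n] := Nat.ModEq.pow_totient (Nat.coprime_two_left.mpr hn)
  have hback : (2 ^ Nat.totient n) • P = P := by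
    have h2' : addOrderOf P ∣ n := addOrderOf_dvd_of_nsmul_eq_zero hnP
    have hmod' : 2 ^ Nat.totient n ≡ 1 [MOD addOrderOf P] := hmod.of_dvd h2'
    have := (nsmul_eq_nsmul_iff_modEq (x := P)).mpr hmod'
    simpa using this
  -- contradiction: one more doubling step from `2 ^ (φ(n) - 1) • P`
  obtain ⟨m, hm⟩ : ∃ m, Nat.totient n = m + 1 := ⟨Nat.totient n - 1, by omega⟩
  have e : (2 ^ (m + 1)) • P = 2 • ((2 ^ m) • P) := by
    rw [pow_succ, mul_nsmul]
  have h2Q : 2 • ((2 ^ m) • P) ≠ 0 := by rw [← e]; exact hne (m + 1)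
  have hlt := val_xc_lt_val_xc_two_nsmul hW h2 (hne m) h2Q (hstep m).1
  rw [← e, ← hm, hback] at hlt
  exact lt_irrefl _ (lt_of_le_of_lt (hstep m).2 hlt)

end Doubling

end Fermat.Agent.EC.NF
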