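/-
EC library, prime 2: two integral points with the same reduction differ by a point of the kernel
of reduction, for ANY integral Weierstrass model, provided `ψ₂ = 2y + a₁x + a₃` is a unit at one of
them (automatic at nonsingular points of the reduction in residue characteristic 2 when `a₁ x` is
a unit, e.g. for the nodal normal form `y² + γxy = x³ + bx` at points with `v x = 1`).
-/
import Fermat.Agent.EC.NF.NoOddTorsion

set_option autoImplicit false

namespace Fermat.Agent.EC.NF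

open WeierstrassCurve WeierstrassCurve.Affine Fermat.Agent.S51.Doubling

variable {K : Type*} [Field K] {Γ₀ : Type*} [LinearOrderedCommGroupWithZero Γ₀]
variable {v : Valuation K Γ₀} {W : Affine K}

/-- Valuation of the `x`-coordinate of a sum along a chord of non-integral slope. -/
theorem one_lt_val_addX (hW : IsIntegralModel v W) {x₁ x₂ l : K} (hx₁ : v x₁ ≤ 1)
    (hx₂ : v x₂ ≤ 1) (hl : 1 < v l) : 1 < v (W.addX x₁ x₂ l) := by
  have hl2 : v l < v l ^ 2 := by
    have := pow_lt_pow_right₀ hl (by norm_num : 1 < 2)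
    rwa [pow_one] at this
  have h1l2 : 1 < v l ^ 2 := lt_trans hl hl2
  have e1 : v (W.a₁ * l) < v (l ^ 2) := by
    rw [map_mul, map_pow]
    calc v W.a₁ * v l ≤ 1 * v l := by gcongr; exact hW.a₁
      _ = v l := one_mul _
      _ < v l ^ 2 := hl2
  have e2 : v W.a₂ < v (l ^ 2) := by
    rw [map_pow]; exact lt_of_le_of_lt hW.a₂ h1l2
  have e3 : v x₁ < v (l ^ 2) := by
    rw [map_pow]; exact lt_of_le_of_lt hx₁ h1l2
  have e4 : v x₂ < v (l ^ 2) := by
    rw [map_pow]; exact lt_of_le_of_lt hx₂ h1l2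
  have s1 : v (l ^ 2 + W.a₁ * l) = v (l ^ 2) := Valuation.map_add_eq_of_lt_left v e1
  have s2 : v (l ^ 2 + W.a₁ * l - W.a₂) = v (l ^ 2) := by
    rw [← s1] at e2 ⊢
    rw [Valuation.map_sub_eq_of_lt_left v e2]
  have s3 : v (l ^ 2 + W.a₁ * l - W.a₂ - x₁) = v (l ^ 2) := by
    rw [← s2] at e3 ⊢
    rw [Valuation.map_sub_eq_of_lt_left v e3]
  have s4 : v (l ^ 2 + W.a₁ * l - W.a₂ - x₁ - x₂) = v (l ^ 2) := by
    rw [← s3] at e4 ⊢
    rw [Valuation.map_sub_eq_of_lt_left v e4]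
  rw [Affine.addX, s4, map_pow]
  exact h1l2

variable [DecidableEq K]

/-- **Same reduction ⇒ the difference lies in the kernel of reduction.** -/
theorem sub_eq_zero_or_one_lt_of_same_red (hW : IsIntegralModel v W) {x₁ y₁ x₂ y₂ : K}
    (h₁ : W.Nonsingular x₁ y₁) (h₂ : W.Nonsingular x₂ y₂) (hx₁ : v x₁ ≤ 1) (hx₂ : v x₂ ≤ 1)
    (hx : v (x₁ - x₂) < 1) (hy : v (y₁ - y₂) < 1)
    (hψ : v (2 * y₂ + W.a₁ * x₂ + W.a₃) = 1) :
    Point.some x₁ y₁ h₁ - Point.some x₂ y₂ h₂ = 0 ∨
      1 < v (xc W (Point.some x₁ y₁ h₁ - Point.some x₂ y₂ h₂)) := by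
  rw [sub_eq_add_neg, Point.neg_some]
  by_cases hxx : x₁ = x₂
  · left
    have hy' : y₁ = y₂ := by
      rcases Y_eq_of_X_eq h₁.1 h₂.1 hxx with h | h
      · exact h
      · exfalso
        have e : y₁ - y₂ = -(2 * y₂ + W.a₁ * x₂ + W.a₃) := by
          rw [h, Affine.negY]; ring
        rw [e, Valuation.map_neg, hψ] at hy
        exact lt_irrefl _ hy
    exact Point.add_of_Y_eq hxx (by rw [negY_negY]; exact hy')
  · right
    rw [Point.add_of_X_ne hxx, xc_some, slope_of_X_ne hxx]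
    apply one_lt_val_addX hW hx₁ hx₂
    have hnum : v (y₁ - W.negY x₂ y₂) = 1 := by
      have e : y₁ - W.negY x₂ y₂ = (y₁ - y₂) + (2 * y₂ + W.a₁ * x₂ + W.a₃) := by
        rw [Affine.negY]; ring
      rw [e, Valuation.map_add_eq_of_lt_right v (by rw [hψ]; exact hy), hψ]
    have hden0 : 0 < v (x₁ - x₂) := by
      rw [Valuation.pos_iff]; exact sub_ne_zero.mpr hxx
    rw [map_div₀, hnum, one_div]
    exact (one_lt_inv₀ hden0).mpr hx

end Fermat.Agent.EC.NF
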