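/-
EC / NF package: abstract ingredients for "no rational `p`-torsion at the prime 2".

* `one_le_val_x_of_torsion`: on the nodal normal form, a `p`-torsion point whose `x`-coordinate
  has valuation in `π^ℤ`, where `v b = π^n` with `p ∤ 2 n`, has nonsingular reduction (`1 ≤ v x`).
* `false_of_two_points`, `false_of_three_points`: in residue characteristic 2, an integral model
  with `a₁` a unit and `a₃` a non-unit has no three distinct odd-torsion points reducing to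
  points `(1, 0)` or `(1, 1)`.
* `rat_residue_two`, `rat_val_zpow`, `int_val_two_pow`: valuations of rational numbers at a
  valuation of residue characteristic 2.
-/
import Fermat.Agent.EC.NF.ClsHom
import Fermat.Agent.EC.NF.SameRed2
import Fermat.Agent.Lib.FrobeniusExists

set_option autoImplicit false

namespace Fermat.Agent.EC.NF

open WeierstrassCurve WeierstrassCurve.Affine Fermat.Agent.S51.Doubling

variable {K : Type*} [Field K] {Γ₀ : Type*} [LinearOrderedCommGroupWithZero Γ₀]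
  (v : Valuation K Γ₀) {W : Affine K}

section ClsPart

variable [DecidableEq K]

/-- A `p`-torsion point on the nodal normal form whose `x`-coordinate has valuation in `π^ℤ`,
where `v b = π^n` and `p ∤ 2 n`, has `1 ≤ v x` (nonsingular reduction). -/
theorem one_le_val_x_of_torsion (hW : IsNF W) (hg : v W.a₁ = 1) (hb : v W.a₄ < 1)
    (hb0 : W.a₄ ≠ 0) {p : ℕ} (hp : p.Prime) {π : Γ₀} (hπ0 : π ≠ 0) (hπ1 : π < 1) {n : ℕ}
    (hbn : v W.a₄ = π ^ n) (hpn : ¬ p ∣ 2 * n) {x y : K} (h : W.Nonsingular x y)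
    (hP : p • Point.some x y h = 0) (hx : ∃ m : ℤ, v x = π ^ m) : 1 ≤ v x := by
  obtain ⟨m, hm⟩ := hx
  have hπpos : 0 < π := zero_lt_iff.mpr hπ0
  have hinj : Function.Injective (fun k : ℤ => π ^ k) := zpow_right_injective₀ hπpos hπ1.ne
  -- the class is an integer power of `π`
  have hcls : ∃ m' : ℤ, cls v (Point.some x y h) = π ^ m' := by
    simp only [cls]
    split_ifs with h1 h2 h3
    · exact ⟨0, by simp⟩
    · exact ⟨n, by rw [hbn, zpow_natCast]⟩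
    · exact ⟨m, hm⟩
    · refine ⟨2 * (n : ℤ) - m, ?_⟩
      rw [hbn, hm, zpow_sub₀ hπ0, mul_comm 2 (n : ℤ), zpow_mul, zpow_natCast, zpow_ofNat]
  obtain ⟨m', hm'⟩ := hcls
  obtain ⟨k, hk⟩ := torsion_cls v hW hg hb hb0 hP
  rw [hm', hbn, ← zpow_natCast (π ^ m') p, ← zpow_mul, ← zpow_natCast π n, ← zpow_mul] at hk
  have hk' : m' * (p : ℤ) = (n : ℤ) * (2 * k) := hinj hk
  -- `p ∣ k`
  have hpk : (p : ℤ) ∣ k := by
    have hpi : Prime (p : ℤ) := Nat.prime_iff_prime_int.mp hp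
    have h1 : (p : ℤ) ∣ ((2 * n : ℕ) : ℤ) * k := ⟨m', by push_cast; linarith⟩
    rcases hpi.dvd_or_dvd h1 with h2 | h2
    · exact absurd (Int.natCast_dvd_natCast.mp h2) hpn
    · exact h2
  obtain ⟨k', rfl⟩ := hpk
  have hm'' : m' = (n : ℤ) * (2 * k') := by
    have hp0 : (p : ℤ) ≠ 0 := by exact_mod_cast hp.ne_zero
    have : m' * (p : ℤ) = ((n : ℤ) * (2 * k')) * (p : ℤ) := by rw [hk']; ring
    exact mul_right_cancel₀ hp0 this
  have hcls1 : cls v (Point.some x y h) = 1 := by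
    apply cls_eq_one_of_zpow v hb hb0 _ k'
    rw [hm', hm'', hbn, zpow_mul, zpow_natCast]
  rcases (cls_eq_one_iff v hb hb0 _).mp hcls1 with h0 | ⟨x', y', h', hPP, hx'⟩
  · exact absurd h0 (by simp)
  · have : x = x' := by
      have := congrArg (xc W) hPP
      simpa using this
    rw [this]; exact hx'

end ClsPart

section Counting

variable {v} [DecidableEq K]

/-- Two distinct odd-torsion points of an integral model (residue characteristic 2, `a₁` a unit,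
`a₃` a non-unit) with unit `x`-coordinates cannot have the same reduction. -/
theorem false_of_two_points (hW : IsIntegralModel v W) (h2 : v (2 : K) < 1)
    (h1 : v W.a₁ = 1) (h3 : v W.a₃ < 1) {x₁ y₁ x₂ y₂ : K}
    (h₁ : W.Nonsingular x₁ y₁) (h₂ : W.Nonsingular x₂ y₂)
    (hne : Point.some x₁ y₁ h₁ ≠ Point.some x₂ y₂ h₂)
    (hx₁ : v x₁ ≤ 1) (hx₂ : v x₂ = 1) (hy₂ : v y₂ ≤ 1)
    (hx : v (x₁ - x₂) < 1) (hy : v (y₁ - y₂) < 1)
    {n : ℕ} (hn : Odd n) (hn₁ : n • Point.some x₁ y₁ h₁ = 0)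
    (hn₂ : n • Point.some x₂ y₂ h₂ = 0) : False := by
  have hψ : v (2 * y₂ + W.a₁ * x₂ + W.a₃) = 1 := by
    have e1 : v (2 * y₂) < 1 := by
      rw [map_mul]
      calc v 2 * v y₂ ≤ v 2 * 1 := by gcongr
        _ = v 2 := mul_one _
        _ < 1 := h2
    have e2 : v (W.a₁ * x₂) = 1 := by rw [map_mul, h1, hx₂, one_mul]
    have e3 : v (2 * y₂ + W.a₁ * x₂) = 1 := by
      rw [Valuation.map_add_eq_of_lt_right v (by rw [e2]; exact e1), e2]
    rw [Valuation.map_add_eq_of_lt_left v (by rw [e3]; exact h3), e3]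
  rcases sub_eq_zero_or_one_lt_of_same_red hW h₁ h₂ hx₁ hx₂.le hx hy hψ with h0 | hlt
  · exact hne (sub_eq_zero.mp h0)
  · have hD0 : Point.some x₁ y₁ h₁ - Point.some x₂ y₂ h₂ ≠ 0 := fun h0 => hne (sub_eq_zero.mp h0)
    have hnD : n • (Point.some x₁ y₁ h₁ - Point.some x₂ y₂ h₂) = 0 := by
      rw [smul_sub, hn₁, hn₂, sub_zero]
    exact no_odd_torsion_of_one_lt hW h2 hD0 hlt hn hnD

/-- No three distinct odd-torsion points all reducing to `(1, 0)` or `(1, 1)`. -/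
theorem false_of_three_points (hW : IsIntegralModel v W) (h2 : v (2 : K) < 1)
    (h1 : v W.a₁ = 1) (h3 : v W.a₃ < 1) {x₁ y₁ x₂ y₂ x₃ y₃ : K}
    (h₁ : W.Nonsingular x₁ y₁) (h₂ : W.Nonsingular x₂ y₂) (h₃ : W.Nonsingular x₃ y₃)
    (hne₁₂ : Point.some x₁ y₁ h₁ ≠ Point.some x₂ y₂ h₂)
    (hne₁₃ : Point.some x₁ y₁ h₁ ≠ Point.some x₃ y₃ h₃)
    (hne₂₃ : Point.some x₂ y₂ h₂ ≠ Point.some x₃ y₃ h₃)
    (hx₁ : v (x₁ - 1) < 1) (hx₂ : v (x₂ - 1) < 1) (hx₃ : v (x₃ - 1) < 1)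
    (hy₁ : v y₁ < 1 ∨ v (y₁ - 1) < 1) (hy₂ : v y₂ < 1 ∨ v (y₂ - 1) < 1)
    (hy₃ : v y₃ < 1 ∨ v (y₃ - 1) < 1)
    {n : ℕ} (hn : Odd n) (hn₁ : n • Point.some x₁ y₁ h₁ = 0)
    (hn₂ : n • Point.some x₂ y₂ h₂ = 0) (hn₃ : n • Point.some x₃ y₃ h₃ = 0) : False := by
  -- basic consequences of the residue conditions
  have hunit : ∀ {x : K}, v (x - 1) < 1 → v x = 1 := by
    intro x hx
    have e : x = 1 + (x - 1) := by ring
    rw [e]
    exact v.map_one_add_of_lt hx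
  have hint : ∀ {y : K}, (v y < 1 ∨ v (y - 1) < 1) → v y ≤ 1 := by
    intro y hy
    rcases hy with hy | hy
    · exact hy.le
    · exact (hunit hy).le
  have hxx : ∀ {x x' : K}, v (x - 1) < 1 → v (x' - 1) < 1 → v (x - x') < 1 := by
    intro x x' hx hx'
    have e : x - x' = (x - 1) - (x' - 1) := by ring
    rw [e]
    exact v.map_sub_lt hx hx'
  -- a pair with the same residue of `y`
  have pair : ∀ {xa ya xb yb : K} (ha : W.Nonsingular xa ya) (hb : W.Nonsingular xb yb),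
      Point.some xa ya ha ≠ Point.some xb yb hb → v (xa - 1) < 1 → v (xb - 1) < 1 →
      (v yb < 1 ∨ v (yb - 1) < 1) → v (ya - yb) < 1 →
      n • Point.some xa ya ha = 0 → n • Point.some xb yb hb = 0 → False := by
    intro xa ya xb yb ha hb hne hxa hxb hyb hyab hna hnb
    exact false_of_two_points hW h2 h1 h3 ha hb hne (hunit hxa).le (hunit hxb) (hint hyb)
      (hxx hxa hxb) hyab hn hna hnb
  rcases hy₁ with hy₁ | hy₁ <;> rcases hy₂ with hy₂ | hy₂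
  · exact pair h₁ h₂ hne₁₂ hx₁ hx₂ (Or.inl hy₂) (v.map_sub_lt hy₁ hy₂) hn₁ hn₂
  · rcases hy₃ with hy₃ | hy₃
    · exact pair h₁ h₃ hne₁₃ hx₁ hx₃ (Or.inl hy₃) (v.map_sub_lt hy₁ hy₃) hn₁ hn₃
    · exact pair h₂ h₃ hne₂₃ hx₂ hx₃ (Or.inr hy₃) (hxx hy₂ hy₃) hn₂ hn₃
  · rcases hy₃ with hy₃ | hy₃
    · exact pair h₂ h₃ hne₂₃ hx₂ hx₃ (Or.inl hy₃) (v.map_sub_lt hy₂ hy₃) hn₂ hn₃
    · exact pair h₁ h₃ hne₁₃ hx₁ hx₃ (Or.inr hy₃) (hxx hy₁ hy₃) hn₁ hn₃
  · exact pair h₁ h₂ hne₁₂ hx₁ hx₂ (Or.inr hy₂) (hxx hy₁ hy₂) hn₁ hn₂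

end Counting

end Fermat.Agent.EC.NF
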