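/-
EC library, prime 2: the abstract local theorem for a curve `E : y² + a₁xy = x³ + a₂x² + a₄x`
(`a₃ = a₆ = 0`) over a valued field `(K, v)` with `v 2 < 1`, `v a₁ = 1`, `v a₂ ≤ 1`, `0 < v a₄ < 1`
(multiplicative reduction in residue characteristic 2).

With `β² + a₁ β = a₂` the substitution `y ↦ y - β x` brings `E` into the nodal normal form
`NF(2β + a₁, a₄)` (`nfCurve`, `toNF`).  If the class function `cls` of the normal form is additive
modulo `v(a₄)^(2ℤ)` (hypothesis `ClsAdd`, proved in `ClsHom.lean`), then every automorphism `σ` of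
`K` preserving `v`, acting trivially on the residue field and fixing `β` satisfies
`σ (σ Q - Q) = σ Q - Q` for every point `Q` of odd order:
  * `σ Q - Q` has class `1`, i.e. nonsingular reduction;
  * points of odd order with nonsingular reduction are fixed by `σ`
    (`SameRed2` + `NoOddTorsion`).
-/
import Fermat.Agent.EC.NF.ClsDef
import Fermat.Agent.EC.NF.SameRed2
import Fermat.Agent.S05.Transfer

set_option autoImplicit false

namespace Fermat.Agent.EC.NF

namespace Local2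

open WeierstrassCurve WeierstrassCurve.Affine Fermat.Agent.S51.Doubling

/-! ### Automorphisms preserving the maximal ideal preserve the valuation -/

section ValInv

variable {F K : Type*} [Field F] [Field K] [Algebra F K] [Algebra.IsAlgebraic F K]
  {Γ₀ : Type*} [LinearOrderedCommGroupWithZero Γ₀] (v : Valuation K Γ₀)

theorem not_val_map_lt (τ : K ≃ₐ[F] K) (h₁ : ∀ a, v a < 1 → v (τ a) < 1) (x : K) :
    ¬ v (τ x) < v x := by
  intro hlt
  have hx0 : x ≠ 0 := by
    rintro rfl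
    simp at hlt
  have hvx0 : 0 < v x := by rw [Valuation.pos_iff]; exact hx0
  set u := τ x / x with hu
  have hvu : v u < 1 := by
    rw [hu, map_div₀]
    exact (div_lt_one₀ hvx0).mpr hlt
  have hτx : τ x = u * x := by rw [hu, div_mul_cancel₀ _ hx0]
  have hpu : ∀ k : ℕ, v ((τ ^ k) u) < 1 := by
    intro k
    induction k with
    | zero => simpa using hvu
    | succ k ih =>
      rw [pow_succ', AlgEquiv.mul_apply]
      exact h₁ _ ih
  have hstep : ∀ k : ℕ, v ((τ ^ (k + 1)) x) < v ((τ ^ k) x) := by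
    intro k
    have e : (τ ^ (k + 1)) x = (τ ^ k) u * (τ ^ k) x := by
      rw [pow_succ, AlgEquiv.mul_apply, hτx, map_mul]
    have hpos : 0 < v ((τ ^ k) x) := by
      rw [Valuation.pos_iff]
      exact (map_ne_zero _).mpr hx0
    rw [e, map_mul]
    calc v ((τ ^ k) u) * v ((τ ^ k) x) < 1 * v ((τ ^ k) x) :=
          mul_lt_mul_of_pos_right (hpu k) hpos
      _ = v ((τ ^ k) x) := one_mul _
  have hanti : StrictAnti fun k : ℕ => v ((τ ^ k) x) := strictAnti_nat_of_succ_lt hstep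
  have hinj : Function.Injective fun k : ℕ => (τ ^ k) x := by
    intro i j hij
    exact hanti.injective (congrArg v hij)
  have hint : IsIntegral F x := (Algebra.IsAlgebraic.isAlgebraic x).isIntegral
  have hsub : Set.range (fun k : ℕ => (τ ^ k) x) ⊆ (minpoly F x).rootSet K := by
    rintro _ ⟨k, rfl⟩
    rw [Polynomial.mem_rootSet]
    refine ⟨minpoly.ne_zero hint, ?_⟩
    have := Polynomial.aeval_algHom_apply ((τ ^ k : K ≃ₐ[F] K) : K →ₐ[F] K) x (minpoly F x)
    rw [minpoly.aeval, map_zero] at this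
    exact this
  exact (Set.infinite_range_of_injective hinj)
    ((Polynomial.rootSet_finite (minpoly F x) K).subset hsub)

/-- An automorphism which (together with its inverse) preserves the maximal ideal preserves the
valuation. -/
theorem val_map_eq (σ : K ≃ₐ[F] K) (h₁ : ∀ a, v a < 1 → v (σ a) < 1)
    (h₂ : ∀ a, v a < 1 → v (σ.symm a) < 1) (x : K) : v (σ x) = v x := by
  refine le_antisymm ?_ ?_
  · by_contra hcon
    rw [not_le] at hcon
    have := not_val_map_lt v σ.symm h₂ (σ x)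
    rw [AlgEquiv.symm_apply_apply] at this
    exact this hcon
  · by_contra hcon
    rw [not_le] at hcon
    exact not_val_map_lt v σ h₁ x hcon

end ValInv

/-! ### Elementary properties of `cls` (from the definition) -/

section ClsBasic

variable {K : Type*} [Field K] {Γ₀ : Type*} [LinearOrderedCommGroupWithZero Γ₀]
  (v : Valuation K Γ₀) {W : Affine K}

theorem cls_le_one (hb : v W.a₄ < 1) (P : W.Point) : cls v P ≤ 1 := by
  rcases P with _ | ⟨x, y, h⟩
  · exact le_refl _
  · show (if 1 ≤ v x then 1 else if v x ≤ v W.a₄ then v W.a₄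
      else if v y < v x then v x else v W.a₄ ^ 2 / v x) ≤ 1
    split_ifs with h1 h2 h3
    · exact le_refl _
    · exact hb.le
    · exact (not_le.mp h1).le
    · have hbx : v W.a₄ < v x := not_le.mp h2
      have hx0 : 0 < v x := lt_of_le_of_lt zero_le hbx
      rw [div_le_one₀ hx0]
      calc v W.a₄ ^ 2 ≤ v W.a₄ := by
            rw [sq]
            calc v W.a₄ * v W.a₄ ≤ v W.a₄ * 1 := by gcongr
              _ = v W.a₄ := mul_one _
        _ ≤ v x := hbx.le

theorem sq_lt_cls (hb0 : W.a₄ ≠ 0) (hb : v W.a₄ < 1) (P : W.Point) :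
    v W.a₄ ^ 2 < cls v P := by
  have hb0' : 0 < v W.a₄ := by rw [Valuation.pos_iff]; exact hb0
  have hsq : v W.a₄ ^ 2 < v W.a₄ := by
    rw [sq]
    calc v W.a₄ * v W.a₄ < v W.a₄ * 1 := mul_lt_mul_of_pos_left hb hb0'
      _ = v W.a₄ := mul_one _
  rcases P with _ | ⟨x, y, h⟩
  · exact lt_trans hsq hb
  · show v W.a₄ ^ 2 < (if 1 ≤ v x then 1 else if v x ≤ v W.a₄ then v W.a₄
      else if v y < v x then v x else v W.a₄ ^ 2 / v x)
    split_ifs with h1 h2 h3
    · exact lt_trans hsq hb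
    · exact hsq
    · exact lt_trans hsq (not_le.mp h2)
    · have hbx : v W.a₄ < v x := not_le.mp h2
      have hx0 : 0 < v x := lt_of_le_of_lt zero_le hbx
      have hx1 : v x < 1 := not_le.mp h1
      rw [lt_div_iff₀ hx0]
      calc v W.a₄ ^ 2 * v x < v W.a₄ ^ 2 * 1 :=
            mul_lt_mul_of_pos_left hx1 (pow_pos hb0' 2)
        _ = v W.a₄ ^ 2 := mul_one _

theorem one_le_of_cls_eq_one (hb : v W.a₄ < 1) {x y : K} (h : W.Nonsingular x y)
    (hc : cls v (Point.some x y h) = 1) : 1 ≤ v x := by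
  by_contra h1
  have hc' : (if 1 ≤ v x then 1 else if v x ≤ v W.a₄ then v W.a₄
      else if v y < v x then v x else v W.a₄ ^ 2 / v x) = 1 := hc
  rw [if_neg h1] at hc'
  split_ifs at hc' with h2 h3
  · exact absurd hc' hb.ne
  · exact h1 hc'.ge
  · have hbx : v W.a₄ < v x := not_le.mp h2
    have hx0 : 0 < v x := lt_of_le_of_lt zero_le hbx
    rw [div_eq_one_iff_eq hx0.ne'] at hc'
    have : v W.a₄ ^ 2 ≤ v W.a₄ := by
      rw [sq]
      calc v W.a₄ * v W.a₄ ≤ v W.a₄ * 1 := by gcongr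
        _ = v W.a₄ := mul_one _
    rw [hc'] at this
    exact absurd this (not_le.mpr hbx)

theorem cls_congr {x y x' y' : K} (h : W.Nonsingular x y) (h' : W.Nonsingular x' y')
    (hx : v x = v x') (hy : v y = v y') :
    cls v (Point.some x y h) = cls v (Point.some x' y' h') := by
  show (if 1 ≤ v x then 1 else if v x ≤ v W.a₄ then v W.a₄
      else if v y < v x then v x else v W.a₄ ^ 2 / v x) =
    (if 1 ≤ v x' then 1 else if v x' ≤ v W.a₄ then v W.a₄
      else if v y' < v x' then v x' else v W.a₄ ^ 2 / v x')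
  rw [hx, hy]

/-- A power `c ^ (2k)` in the range `(c², 1]` is `1` (for `0 < c < 1`). -/
theorem zpow_eq_one_of_range {c : Γ₀} (hc0 : 0 < c) (hc1 : c < 1) {k : ℤ}
    (h1 : c ^ 2 < c ^ (2 * k)) (h2 : c ^ (2 * k) ≤ 1) : c ^ (2 * k) = 1 := by
  rcases lt_trichotomy k 0 with hk | hk | hk
  · exfalso
    have : 1 < c ^ (2 * k) := one_lt_zpow_of_neg₀ hc0 hc1 (by omega)
    exact absurd h2 (not_le.mpr this)
  · rw [hk]; simp
  · exfalso
    have : c ^ (2 * k) ≤ c ^ (2 : ℤ) := zpow_le_zpow_right_of_le_one₀ hc0 hc1.le (by omega)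
    rw [zpow_ofNat] at this
    exact absurd h1 (not_lt.mpr this)

end ClsBasic

/-! ### The normal form of `y² + a₁xy = x³ + a₂x² + a₄x` -/

section NormalForm

variable {K : Type*} [Field K]

/-- The nodal normal form `y² + (2β + a₁) x y = x³ + a₄ x` attached to `E` and `β`. -/
def nfCurve (E : Affine K) (β : K) : Affine K := ⟨2 * β + E.a₁, 0, 0, E.a₄, 0⟩

theorem isNF_nfCurve (E : Affine K) (β : K) : IsNF (nfCurve E β) := ⟨rfl, rfl, rfl⟩

@[simp] theorem nfCurve_a₁ (E : Affine K) (β : K) : (nfCurve E β).a₁ = 2 * β + E.a₁ := rfl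
@[simp] theorem nfCurve_a₄ (E : Affine K) (β : K) : (nfCurve E β).a₄ = E.a₄ := rfl

/-- The variable change `y ↦ y - β x`. -/
def nfVC (β : K) : VariableChange K := ⟨1, 0, -β, 0⟩

theorem nfVC_smul {E : Affine K} (hE₃ : E.a₃ = 0) (hE₆ : E.a₆ = 0) {β : K}
    (hβ : β ^ 2 + E.a₁ * β = E.a₂) : nfVC β • nfCurve E β = E := by
  ext
  · simp only [variableChange_a₁, nfVC, nfCurve, inv_one, Units.val_one]
    ring
  · simp only [variableChange_a₂, nfVC, nfCurve, inv_one, Units.val_one]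
    linear_combination hβ
  · simp only [variableChange_a₃, nfVC, nfCurve, inv_one, Units.val_one]
    rw [hE₃]; ring
  · simp only [variableChange_a₄, nfVC, nfCurve, inv_one, Units.val_one]
    ring
  · simp only [variableChange_a₆, nfVC, nfCurve, inv_one, Units.val_one]
    rw [hE₆]; ring

variable [DecidableEq K]

/-- The isomorphism `E(K) ≃ NF(K)`, `(x, y) ↦ (x, y - β x)`. -/
noncomputable def toNF {E : Affine K} (hE₃ : E.a₃ = 0) (hE₆ : E.a₆ = 0) {β : K}
    (hβ : β ^ 2 + E.a₁ * β = E.a₂) : E.Point ≃+ (nfCurve E β).Point :=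
  Fermat.Agent.S05.Transfer.vcEquiv (nfVC β) (nfVC_smul hE₃ hE₆ hβ)

theorem toNF_some {E : Affine K} (hE₃ : E.a₃ = 0) (hE₆ : E.a₆ = 0) {β : K}
    (hβ : β ^ 2 + E.a₁ * β = E.a₂) {x y : K} (h : E.Nonsingular x y) :
    ∃ h' : (nfCurve E β).Nonsingular x (y - β * x),
      toNF hE₃ hE₆ hβ (Point.some x y h) = Point.some x (y - β * x) h' := by
  have key := Fermat.Agent.S05.Transfer.vcEquiv_some (nfVC β) (nfVC_smul hE₃ hE₆ hβ) h
  have hX : Fermat.Agent.S05.Transfer.vcX (nfVC β) x = x := by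
    simp [Fermat.Agent.S05.Transfer.vcX, nfVC]
  have hY : Fermat.Agent.S05.Transfer.vcY (nfVC β) x y = y - β * x := by
    simp [Fermat.Agent.S05.Transfer.vcY, nfVC]; ring
  have aux : ∀ (X Y : K) (hXY : (nfCurve E β).Nonsingular X Y), X = x → Y = y - β * x →
      ∃ h' : (nfCurve E β).Nonsingular x (y - β * x),
        (Point.some X Y hXY : (nfCurve E β).Point) = Point.some x (y - β * x) h' := by
    intro X Y hXY hX' hY'
    subst hX' hY'
    exact ⟨hXY, rfl⟩
  obtain ⟨h', hh'⟩ := aux _ _ _ hX hY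
  exact ⟨h', key.trans hh'⟩

end NormalForm

/-! ### The local theorem -/

section Main

variable {K : Type*} [Field K] {Γ₀ : Type*} [LinearOrderedCommGroupWithZero Γ₀]

/-- Additivity of the class function modulo `v(b)^(2ℤ)` (proved in `ClsHom.lean` for the nodal
normal form). -/
def ClsAdd (v : Valuation K Γ₀) (W : Affine K) [DecidableEq K] : Prop :=
  ∀ P Q : W.Point, ∃ k : ℤ, cls v (P + Q) = cls v P * cls v Q * v W.a₄ ^ (2 * k)

/-- Integrality of `y` at an integral point of an integral Weierstrass model. -/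
theorem val_y_le_one {v : Valuation K Γ₀} {W : Affine K} (hW : IsIntegralModel v W) {x y : K}
    (h : W.Equation x y) (hx : v x ≤ 1) : v y ≤ 1 := by
  by_contra hcon
  have hy : 1 < v y := not_le.mp hcon
  rw [Affine.equation_iff] at h
  have hy2 : v y < v y ^ 2 := by
    have := pow_lt_pow_right₀ hy (by norm_num : 1 < 2)
    rwa [pow_one] at this
  have e : y ^ 2 = x ^ 3 + W.a₂ * x ^ 2 + W.a₄ * x + W.a₆ - W.a₁ * x * y - W.a₃ * y := by
    linear_combination h
  have hR : v (x ^ 3 + W.a₂ * x ^ 2 + W.a₄ * x + W.a₆) ≤ 1 := by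
    refine Valuation.map_add_le v (Valuation.map_add_le v (Valuation.map_add_le v ?_ ?_) ?_) hW.a₆
    · rw [map_pow]; exact pow_le_one₀ zero_le hx
    · rw [map_mul, map_pow]; exact mul_le_one' hW.a₂ (pow_le_one₀ zero_le hx)
    · rw [map_mul]; exact mul_le_one' hW.a₄ hx
  have h1 : v (W.a₁ * x * y) ≤ v y := by
    rw [map_mul, map_mul]
    calc v W.a₁ * v x * v y ≤ 1 * 1 * v y := by gcongr; exact hW.a₁
      _ = v y := by rw [one_mul, one_mul]
  have h3 : v (W.a₃ * y) ≤ v y := by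
    rw [map_mul]
    calc v W.a₃ * v y ≤ 1 * v y := by gcongr; exact hW.a₃
      _ = v y := one_mul _
  have : v (y ^ 2) ≤ v y := by
    rw [e]
    exact Valuation.map_sub_le v (Valuation.map_sub_le v (le_trans hR hy.le) h1) h3
  rw [map_pow] at this
  exact absurd this (not_le.mpr hy2)

variable [DecidableEq K]

/-- Two points with the same class differ by a point of class `1`. -/
theorem cls_sub_eq_one (v : Valuation K Γ₀) {W : Affine K} (hadd : ClsAdd v W)
    (hb0 : W.a₄ ≠ 0) (hb : v W.a₄ < 1) {A B : W.Point} (hAB : cls v A = cls v B) :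
    cls v (A - B) = 1 := by
  have hb0' : 0 < v W.a₄ := by rw [Valuation.pos_iff]; exact hb0
  obtain ⟨k₁, hk₁⟩ := hadd A (-B)
  obtain ⟨k₂, hk₂⟩ := hadd B (-B)
  rw [add_neg_cancel] at hk₂
  have h0 : cls v (0 : W.Point) = 1 := rfl
  rw [h0] at hk₂
  have hX : cls v B * cls v (-B) = (v W.a₄ ^ (2 * k₂))⁻¹ :=
    eq_inv_of_mul_eq_one_left hk₂.symm
  have hpow : cls v (A - B) = v W.a₄ ^ (2 * (k₁ - k₂)) := by
    rw [sub_eq_add_neg, hk₁, hAB, hX, ← zpow_neg, ← zpow_add₀ hb0'.ne']
    congr 1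
    ring
  rw [hpow]
  apply zpow_eq_one_of_range hb0' hb
  · rw [← hpow]; exact sq_lt_cls v hb0 hb _
  · rw [← hpow]; exact cls_le_one v hb _

variable {F : Type*} [Field F] [Algebra F K]

/-- **Local theorem at a place of residue characteristic 2 with multiplicative reduction**:
`(σ - 1)² = 0` on points of odd order. -/
theorem map_sub_fixed (v : Valuation K Γ₀) (E₀ : Affine F) (hE₃ : E₀.a₃ = 0) (hE₆ : E₀.a₆ = 0)
    (σ : K ≃ₐ[F] K) (hσv : ∀ x : K, v (σ x) = v x) (hσ : ∀ x : K, v x ≤ 1 → v (σ x - x) < 1)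
    (h2 : v (2 : K) < 1) (ha₁ : v (algebraMap F K E₀.a₁) = 1)
    (ha₂ : v (algebraMap F K E₀.a₂) ≤ 1) (hb : v (algebraMap F K E₀.a₄) < 1) (hb0 : E₀.a₄ ≠ 0)
    {β : K} (hβ : β ^ 2 + algebraMap F K E₀.a₁ * β = algebraMap F K E₀.a₂) (hσβ : σ β = β)
    (hadd : ClsAdd v (nfCurve (E₀⁄K) β))
    {n : ℕ} (hn : Odd n) (Q : (E₀⁄K).Point) (hQ : n • Q = 0) :
    Point.map (W' := E₀) σ.toAlgHom (Point.map (W' := E₀) σ.toAlgHom Q - Q) =
      Point.map (W' := E₀) σ.toAlgHom Q - Q := by
  have hE₃' : (E₀⁄K).a₃ = 0 := by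
    show algebraMap F K E₀.a₃ = 0
    rw [hE₃, map_zero]
  have hE₆' : (E₀⁄K).a₆ = 0 := by
    show algebraMap F K E₀.a₆ = 0
    rw [hE₆, map_zero]
  have hβ' : β ^ 2 + (E₀⁄K).a₁ * β = (E₀⁄K).a₂ := hβ
  have hint : IsIntegralModel v (E₀⁄K) :=
    ⟨ha₁.le, ha₂, by rw [hE₃']; simp, hb.le, by rw [hE₆']; simp⟩
  have hbN : v (nfCurve (E₀⁄K) β).a₄ < 1 := hb
  have hb0N : (nfCurve (E₀⁄K) β).a₄ ≠ 0 := by
    show algebraMap F K E₀.a₄ ≠ 0
    exact (map_ne_zero _).mpr hb0
  -- the class is invariant under `σ`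
  have hinv : ∀ R : (E₀⁄K).Point,
      cls v (toNF hE₃' hE₆' hβ' (Point.map (W' := E₀) σ.toAlgHom R)) =
        cls v (toNF hE₃' hE₆' hβ' R) := by
    intro R
    rcases R with _ | ⟨x, y, h⟩
    · have h0 : (Point.zero : (E₀⁄K).Point) = 0 := rfl
      rw [h0, map_zero]
    · have h' : (E₀⁄K).Nonsingular (σ x) (σ y) :=
        (E₀.baseChange_nonsingular σ.toAlgHom.injective ..).mpr h
      have e : Point.map (W' := E₀) σ.toAlgHom (Point.some x y h) = Point.some (σ x) (σ y) h' :=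
        rfl
      obtain ⟨h₁, e₁⟩ := toNF_some hE₃' hE₆' hβ' h
      obtain ⟨h₂, e₂⟩ := toNF_some hE₃' hE₆' hβ' h'
      rw [e, e₁, e₂]
      apply cls_congr v h₂ h₁ (hσv x)
      have : σ y - β * σ x = σ (y - β * x) := by rw [map_sub, map_mul, hσβ]
      rw [this, hσv]
  -- no odd torsion in the kernel of reduction
  have hno : ∀ R : (E₀⁄K).Point, n • R = 0 → 1 < v (xc (E₀⁄K) R) → False := by
    intro R hR hx
    refine no_odd_torsion_of_one_lt hint h2 ?_ hx hn hR
    rintro rfl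
    simp at hx
  obtain ⟨D, hDdef⟩ : ∃ D, D = Point.map (W' := E₀) σ.toAlgHom Q - Q := ⟨_, rfl⟩
  rw [← hDdef]
  have hnD : n • D = 0 := by
    rw [hDdef, smul_sub, ← map_nsmul, hQ, map_zero, sub_zero]
  have hcD : cls v (toNF hE₃' hE₆' hβ' D) = 1 := by
    rw [hDdef, map_sub]
    exact cls_sub_eq_one v hadd hb0N hbN (hinv Q)
  clear hDdef
  rcases D with _ | ⟨x, y, h⟩
  · have h0 : (Point.zero : (E₀⁄K).Point) = 0 := rfl
    rw [h0, map_zero]
  · obtain ⟨h₁, e₁⟩ := toNF_some hE₃' hE₆' hβ' h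
    rw [e₁] at hcD
    have hx1 : 1 ≤ v x := one_le_of_cls_eq_one v hbN h₁ hcD
    have hx : v x = 1 := by
      refine le_antisymm ?_ hx1
      by_contra hlt
      exact hno (Point.some x y h) hnD (not_le.mp hlt)
    have hy : v y ≤ 1 := val_y_le_one hint h.1 hx.le
    have hψ : v (2 * y + (E₀⁄K).a₁ * x + (E₀⁄K).a₃) = 1 := by
      rw [hE₃', add_zero]
      have h2y : v (2 * y) < 1 := by
        rw [map_mul]
        calc v 2 * v y ≤ v 2 * 1 := by gcongr
          _ = v 2 := mul_one _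
          _ < 1 := h2
      have hax : v ((E₀⁄K).a₁ * x) = 1 := by
        rw [map_mul, hx, mul_one]; exact ha₁
      rw [Valuation.map_add_eq_of_lt_right v (by rw [hax]; exact h2y), hax]
    have h' : (E₀⁄K).Nonsingular (σ x) (σ y) :=
      (E₀.baseChange_nonsingular σ.toAlgHom.injective ..).mpr h
    have e : Point.map (W' := E₀) σ.toAlgHom (Point.some x y h) = Point.some (σ x) (σ y) h' :=
      rfl
    have key := sub_eq_zero_or_one_lt_of_same_red hint h' h (by rw [hσv]; exact hx.le) hx.le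
      (hσ x hx.le) (hσ y hy) hψ
    rw [e]
    rcases key with key | key
    · exact sub_eq_zero.mp key
    · exfalso
      refine hno _ ?_ key
      rw [← e, smul_sub, ← map_nsmul, hnD, map_zero, sub_zero]

end Main

end Local2

end Fermat.Agent.EC.NF
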