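/-
EC library, prime 2: consequences of the additivity of `cls` for torsion points whose coordinates
have valuation in a cyclic group `π^ℤ` ("rational points"), and the same-reduction lemma for
points with `x ≡ 1`.

If `v(b) = π^N`, `gcd(n, 2N) = 1`, `n • P = 0` and `cls P ∈ π^ℤ`, then `cls P = 1`.
-/
import Fermat.Agent.EC.NF.Local2

set_option autoImplicit false

namespace Fermat.Agent.EC.NF

namespace Local2

open WeierstrassCurve WeierstrassCurve.Affine Fermat.Agent.S51.Doubling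

variable {K : Type*} [Field K] {Γ₀ : Type*} [LinearOrderedCommGroupWithZero Γ₀]

section Cls

variable [DecidableEq K] (v : Valuation K Γ₀) {W : Affine K}

/-- `cls (n • P) = cls P ^ n` modulo `v(b)^(2ℤ)`. -/
theorem cls_nsmul (hadd : ClsAdd v W) (hb0 : W.a₄ ≠ 0) (P : W.Point) (n : ℕ) :
    ∃ k : ℤ, cls v (n • P) = cls v P ^ n * v W.a₄ ^ (2 * k) := by
  have hb0' : v W.a₄ ≠ 0 := (Valuation.ne_zero_iff v).mpr hb0
  induction n with
  | zero =>
    refine ⟨0, ?_⟩
    rw [zero_smul, pow_zero, mul_zero, zpow_zero, mul_one]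
    rfl
  | succ n ih =>
    obtain ⟨k, hk⟩ := ih
    obtain ⟨k₁, hk₁⟩ := hadd (n • P) P
    refine ⟨k + k₁, ?_⟩
    rw [succ_nsmul, hk₁, hk, mul_add, zpow_add₀ hb0', pow_succ]
    simp only [mul_assoc, mul_comm]

/-- A torsion point whose class lies in `π^ℤ` has class `1`, if `v(b) = π^N` with `2N` prime to
the order. -/
theorem cls_eq_one_of_torsion (hadd : ClsAdd v W) (hb0 : W.a₄ ≠ 0) (hb : v W.a₄ < 1)
    {π : Γ₀} (hπ0 : 0 < π) (hπ1 : π < 1) {N : ℤ} (hN : v W.a₄ = π ^ N)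
    {P : W.Point} {n : ℕ} (hnP : n • P = 0) (hcop : IsCoprime (n : ℤ) (2 * N))
    {m : ℤ} (hm : cls v P = π ^ m) : cls v P = 1 := by
  have hb0' : 0 < v W.a₄ := by rw [Valuation.pos_iff]; exact hb0
  have hn0 : (n : ℤ) ≠ 0 := by
    intro h0
    rw [h0, isCoprime_zero_left, Int.isUnit_iff] at hcop
    omega
  obtain ⟨k, hk⟩ := cls_nsmul v hadd hb0 P n
  rw [hnP] at hk
  have h0 : cls v (0 : W.Point) = 1 := rfl
  rw [h0, hm, hN, ← zpow_natCast, ← zpow_mul, ← zpow_mul, ← zpow_add₀ hπ0.ne'] at hk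
  have hinj := zpow_right_injective₀ hπ0 hπ1.ne
  have hexp : m * (n : ℤ) + N * (2 * k) = 0 := by
    have : π ^ (0 : ℤ) = π ^ (m * (n : ℤ) + N * (2 * k)) := by rw [zpow_zero]; exact hk
    exact (hinj this).symm
  have hdvd : (n : ℤ) ∣ k := by
    apply hcop.dvd_of_dvd_mul_left
    refine ⟨-m, ?_⟩
    linear_combination hexp
  obtain ⟨k', rfl⟩ := hdvd
  have hm' : m = N * (2 * (-k')) := by
    have : (n : ℤ) * (m + N * (2 * k')) = 0 := by linear_combination hexp
    rcases mul_eq_zero.mp this with h | h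
    · exact absurd h hn0
    · linear_combination h
  have hpow : cls v P = v W.a₄ ^ (2 * (-k')) := by
    rw [hm, hN, ← zpow_mul, hm']
  rw [hpow]
  apply zpow_eq_one_of_range hb0' hb
  · rw [← hpow]; exact sq_lt_cls v hb0 hb _
  · rw [← hpow]; exact cls_le_one v hb _

omit [DecidableEq K] in
/-- The class of a point lies in `π^ℤ` if `v(b)` and `v(x)` do. -/
theorem exists_cls_eq_zpow {π : Γ₀} (hπ : π ≠ 0) {N : ℤ} (hN : v W.a₄ = π ^ N) {x y : K}
    (h : W.Nonsingular x y) (hm : x ≠ 0 → ∃ m : ℤ, v x = π ^ m) :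
    ∃ m' : ℤ, cls v (Point.some x y h) = π ^ m' := by
  show ∃ m' : ℤ, (if 1 ≤ v x then 1 else if v x ≤ v W.a₄ then v W.a₄
      else if v y < v x then v x else v W.a₄ ^ 2 / v x) = π ^ m'
  split_ifs with h1 h2 h3
  · exact ⟨0, by simp⟩
  · exact ⟨N, hN⟩
  · have hx0 : x ≠ 0 := by
      rintro rfl
      simp at h2
    exact hm hx0
  · have hx0 : x ≠ 0 := by
      rintro rfl
      simp at h2
    obtain ⟨m, hm⟩ := hm hx0
    refine ⟨2 * N - m, ?_⟩
    rw [hN, hm, zpow_sub₀ hπ, ← zpow_natCast, ← zpow_mul]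
    congr 2
    ring

end Cls

section SameClass

variable (v : Valuation K Γ₀) {E : Affine K} [DecidableEq K]

/-- Two integral points with `x ≡ 1` and congruent `y`-coordinates differ by a point of the kernel
of reduction (residue characteristic 2, `a₁` a unit, `a₃ = 0`). -/
theorem sub_same_class (hint : IsIntegralModel v E) (h2 : v (2 : K) < 1) (ha₁ : v E.a₁ = 1)
    (ha₃ : E.a₃ = 0) {x₁ y₁ x₂ y₂ : K} (h₁ : E.Nonsingular x₁ y₁) (h₂ : E.Nonsingular x₂ y₂)
    (hx₁ : v (x₁ - 1) < 1) (hx₂ : v (x₂ - 1) < 1) (hy₂ : v y₂ ≤ 1) (hy : v (y₁ - y₂) < 1) :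
    Point.some x₁ y₁ h₁ - Point.some x₂ y₂ h₂ = 0 ∨
      1 < v (xc E (Point.some x₁ y₁ h₁ - Point.some x₂ y₂ h₂)) := by
  have hv : ∀ x : K, v (x - 1) < 1 → v x = 1 := by
    intro x hx
    have e : x = (x - 1) + 1 := by ring
    rw [e, Valuation.map_add_eq_of_lt_right v (by rw [map_one]; exact hx), map_one]
  have hvx₁ := hv x₁ hx₁
  have hvx₂ := hv x₂ hx₂
  have hx : v (x₁ - x₂) < 1 := by
    have e : x₁ - x₂ = (x₁ - 1) - (x₂ - 1) := by ring
    rw [e]
    exact Valuation.map_sub_lt v hx₁ hx₂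
  have hψ : v (2 * y₂ + E.a₁ * x₂ + E.a₃) = 1 := by
    rw [ha₃, add_zero]
    have h2y : v (2 * y₂) < 1 := by
      rw [map_mul]
      calc v 2 * v y₂ ≤ v 2 * 1 := by gcongr
        _ = v 2 := mul_one _
        _ < 1 := h2
    have hax : v (E.a₁ * x₂) = 1 := by rw [map_mul, hvx₂, mul_one]; exact ha₁
    rw [Valuation.map_add_eq_of_lt_right v (by rw [hax]; exact h2y), hax]
  exact sub_eq_zero_or_one_lt_of_same_red hint h₁ h₂ hvx₁.le hvx₂.le hx hy hψ

end SameClass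

end Local2

end Fermat.Agent.EC.NF
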