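import Mathlib
import Fermat.Prelude.Def_FLTPrelim_Ramification
import Fermat.Agent.Lib.FrobeniusExists
import Fermat.Agent.Lib.Frey.Semistable

/-!
# EC task 148 (helper13): 2-adic valuations of rationals inside `ℚ̄`, and the Frey coefficients

`A` is a valuation subring of `AlgebraicClosure ℚ` lying over `2`.
-/

set_option autoImplicit false

namespace Fermat.Agent.EC.NF.TwoAdic

/-- `ℚ̄`. -/
local notation "Qb" => AlgebraicClosure ℚ

theorem val_two_lt_one (A : ValuationSubring Qb) (hA : A.LiesOverPrime 2) :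
    A.valuation (2 : Qb) < 1 := by
  have h : ((2 : ℕ) : Qb) ∈ A.nonunits := hA
  rw [ValuationSubring.mem_nonunits_iff] at h
  simpa using h

theorem val_two_natCast_lt_one (A : ValuationSubring Qb) (hA : A.LiesOverPrime 2) :
    A.valuation ((2 : ℕ) : Qb) < 1 := by
  have h : ((2 : ℕ) : Qb) ∈ A.nonunits := hA
  rwa [ValuationSubring.mem_nonunits_iff] at h

theorem val_two_ne_zero (A : ValuationSubring Qb) : A.valuation (2 : Qb) ≠ 0 := by
  rw [Ne, Valuation.zero_iff]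
  exact two_ne_zero

theorem val_intCast_le_one (A : ValuationSubring Qb) (n : ℤ) : A.valuation (n : Qb) ≤ 1 :=
  (A.valuation_le_one_iff _).mpr (intCast_mem A n)

/-- An odd integer is a `2`-adic unit. -/
theorem val_odd (A : ValuationSubring Qb) (hA : A.LiesOverPrime 2) {n : ℤ} (hn : ¬ (2 : ℤ) ∣ n) :
    A.valuation (n : Qb) = 1 :=
  Fermat.Agent.Lib.FrobeniusExists.val_intCast_eq_one A.valuation Nat.prime_two
    (val_two_natCast_lt_one A hA) (by simpa using hn)

/-- An even integer is a `2`-adic non-unit. -/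
theorem val_even (A : ValuationSubring Qb) (hA : A.LiesOverPrime 2) {n : ℤ} (hn : (2 : ℤ) ∣ n) :
    A.valuation (n : Qb) < 1 := by
  obtain ⟨k, rfl⟩ := hn
  rw [Int.cast_mul, map_mul]
  calc A.valuation ((2 : ℤ) : Qb) * A.valuation (k : Qb)
      ≤ A.valuation ((2 : ℤ) : Qb) := mul_le_of_le_one_right' (val_intCast_le_one A k)
    _ = A.valuation (2 : Qb) := by simp
    _ < 1 := val_two_lt_one A hA

/-- The valuation of a nonzero natural number is a power of `v 2`. -/
theorem val_natCast_eq_pow (A : ValuationSubring Qb) (hA : A.LiesOverPrime 2) {m : ℕ}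
    (hm : m ≠ 0) : ∃ e : ℕ, ∃ m' : ℕ, ¬ 2 ∣ m' ∧ m = 2 ^ e * m' ∧
      A.valuation (m : Qb) = A.valuation (2 : Qb) ^ e := by
  obtain ⟨e, m', hm', rfl⟩ := Nat.exists_eq_pow_mul_and_not_dvd hm 2 (by norm_num)
  refine ⟨e, m', hm', rfl, ?_⟩
  have h1 : A.valuation ((m' : ℤ) : Qb) = 1 := val_odd A hA (by exact_mod_cast hm')
  rw [Nat.cast_mul, Nat.cast_pow, map_mul, map_pow]
  have h2 : A.valuation ((m' : ℕ) : Qb) = 1 := by simpa using h1
  rw [h2, mul_one]
  simp

/-- The valuation of a nonzero integer is a power of `v 2`. -/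
theorem val_intCast_eq_pow (A : ValuationSubring Qb) (hA : A.LiesOverPrime 2) {n : ℤ}
    (hn : n ≠ 0) : ∃ e : ℕ, A.valuation (n : Qb) = A.valuation (2 : Qb) ^ e := by
  obtain ⟨e, m', -, -, h⟩ := val_natCast_eq_pow A hA (Int.natAbs_ne_zero.mpr hn)
  refine ⟨e, ?_⟩
  rcases Int.natAbs_eq n with h1 | h1
  · rw [h1, Int.cast_natCast]; exact h
  · rw [h1, Int.cast_neg, Valuation.map_neg, Int.cast_natCast]; exact h

theorem algebraMap_rat_eq (r : ℚ) : algebraMap ℚ Qb r = (r.num : Qb) / (r.den : Qb) := by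
  conv_lhs => rw [← Rat.num_div_den r]
  rw [map_div₀, map_intCast, map_natCast]

theorem val_rat_eq_zpow (A : ValuationSubring Qb) (hA : A.LiesOverPrime 2) (r : ℚ) (hr : r ≠ 0) :
    ∃ m : ℤ, A.valuation (algebraMap ℚ Qb r) = A.valuation (2 : Qb) ^ m := by
  obtain ⟨i, hi⟩ := val_intCast_eq_pow A hA (Rat.num_ne_zero.mpr hr)
  obtain ⟨j, hj⟩ := val_intCast_eq_pow A hA (n := (r.den : ℤ)) (by exact_mod_cast r.den_ne_zero)
  refine ⟨(i : ℤ) - j, ?_⟩
  rw [algebraMap_rat_eq, map_div₀, hi]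
  have hj' : A.valuation ((r.den : ℕ) : Qb) = A.valuation (2 : Qb) ^ j := by simpa using hj
  rw [hj', zpow_sub₀ (val_two_ne_zero A), zpow_natCast, zpow_natCast]

theorem val_rat_dichotomy (A : ValuationSubring Qb) (hA : A.LiesOverPrime 2) (r : ℚ)
    (hr : A.valuation (algebraMap ℚ Qb r) ≤ 1) :
    A.valuation (algebraMap ℚ Qb r) < 1 ∨ A.valuation (algebraMap ℚ Qb r - 1) < 1 := by
  have hden0 : ((r.den : ℕ) : Qb) ≠ 0 := Nat.cast_ne_zero.mpr r.den_ne_zero
  -- the denominator is odd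
  have hdodd : ¬ (2 : ℤ) ∣ (r.den : ℤ) := by
    intro h2
    have hnum : ¬ (2 : ℤ) ∣ r.num := by
      intro h3
      have hcop : Nat.Coprime r.num.natAbs r.den := r.reduced
      have h4 : 2 ∣ r.num.natAbs := Int.natCast_dvd.mp h3
      have h5 : 2 ∣ r.den := by exact_mod_cast h2
      have := Nat.dvd_gcd h4 h5
      rw [hcop.gcd_eq_one] at this
      omega
    have h1 : A.valuation (r.num : Qb) = 1 := val_odd A hA hnum
    have h2' : A.valuation ((r.den : ℤ) : Qb) < 1 := val_even A hA h2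
    rw [Int.cast_natCast] at h2'
    rw [algebraMap_rat_eq, map_div₀, h1] at hr
    have hpos : 0 < A.valuation ((r.den : ℕ) : Qb) := by
      rw [Valuation.pos_iff]; exact hden0
    have : 1 < 1 / A.valuation ((r.den : ℕ) : Qb) := by
      rw [one_div]
      exact (one_lt_inv₀ hpos).mpr h2'
    exact absurd hr (not_le.mpr this)
  have hd1 : A.valuation ((r.den : ℕ) : Qb) = 1 := by
    have := val_odd A hA hdodd
    simpa using this
  by_cases hn : (2 : ℤ) ∣ r.num
  · left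
    rw [algebraMap_rat_eq, map_div₀, hd1, div_one]
    exact val_even A hA hn
  · right
    have hsub : algebraMap ℚ Qb r - 1 = ((r.num - (r.den : ℤ) : ℤ) : Qb) / (r.den : Qb) := by
      rw [algebraMap_rat_eq]
      field_simp
      push_cast
      ring
    rw [hsub, map_div₀, hd1, div_one]
    apply val_even A hA
    omega

theorem frey_a₂_eq (P : FreyPackage) : P.freyCurve.a₂ = ((P.freyCurveInt.a₂ : ℤ) : ℚ) := by
  rw [← Fermat.Agent.Frey.freyCurveInt_map P]
  rfl

theorem frey_a₄_eq (P : FreyPackage) : P.freyCurve.a₄ = ((P.freyCurveInt.a₄ : ℤ) : ℚ) := by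
  rw [← Fermat.Agent.Frey.freyCurveInt_map P]
  rfl

theorem frey_val_a₂ (P : FreyPackage) (A : ValuationSubring Qb) (hA : A.LiesOverPrime 2) :
    A.valuation (algebraMap ℚ Qb P.freyCurve.a₂) ≤ 1 := by
  have _ := hA
  rw [frey_a₂_eq, map_intCast]
  exact val_intCast_le_one A _

theorem frey_a₄_ne_zero (P : FreyPackage) : P.freyCurve.a₄ ≠ 0 := by
  have h4 : P.freyCurve.a₄ = -((P.a : ℚ) ^ P.p) * ((P.b : ℚ) ^ P.p) / 16 := rfl
  rw [h4]
  have ha : (P.a : ℚ) ≠ 0 := by exact_mod_cast P.ha0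
  have hb : (P.b : ℚ) ≠ 0 := by exact_mod_cast P.hb0
  have : -((P.a : ℚ) ^ P.p) * ((P.b : ℚ) ^ P.p) ≠ 0 :=
    mul_ne_zero (neg_ne_zero.mpr (pow_ne_zero _ ha)) (pow_ne_zero _ hb)
  exact div_ne_zero this (by norm_num)

theorem frey_a_odd (P : FreyPackage) : ¬ (2 : ℤ) ∣ P.a := by
  have h := P.ha4
  have h3 : ((3 : ℤ) : ZMod 4) = 3 := by norm_num
  rw [← h3, ZMod.intCast_eq_intCast_iff_dvd_sub] at h
  intro h2
  omega

theorem frey_val_a₄ (P : FreyPackage) (A : ValuationSubring Qb) (hA : A.LiesOverPrime 2) :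
    ∃ N : ℤ, 0 < N ∧ IsCoprime (P.p : ℤ) (2 * N) ∧
      A.valuation (algebraMap ℚ Qb P.freyCurve.a₄) = A.valuation (2 : Qb) ^ N := by
  -- `b = 2 ^ e * o`
  obtain ⟨e, m', hm', hbm, hvb⟩ := val_natCast_eq_pow A hA (Int.natAbs_ne_zero.mpr P.hb0)
  have he : 1 ≤ e := by
    by_contra hcon
    have he0 : e = 0 := by omega
    rw [he0, pow_zero, one_mul] at hbm
    have h2b : (2 : ℤ) ∣ P.b := Fermat.Agent.Frey.two_dvd_b P
    have : 2 ∣ P.b.natAbs := Int.natCast_dvd.mp h2b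
    rw [hbm] at this
    exact hm' this
  have hvb' : A.valuation ((P.b : ℤ) : Qb) = A.valuation (2 : Qb) ^ e := by
    rcases Int.natAbs_eq P.b with h1 | h1
    · rw [h1, Int.cast_natCast]; exact hvb
    · rw [h1, Int.cast_neg, Valuation.map_neg, Int.cast_natCast]; exact hvb
  have hva : A.valuation ((P.a : ℤ) : Qb) = 1 := val_odd A hA (frey_a_odd P)
  have hp5 := P.hp5
  refine ⟨(P.p : ℤ) * e - 4, ?_, ?_, ?_⟩
  · have : (5 : ℤ) ≤ (P.p : ℤ) := by exact_mod_cast hp5
    have he' : (1 : ℤ) ≤ (e : ℤ) := by exact_mod_cast he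
    nlinarith
  · rw [(Nat.prime_iff_prime_int.mp P.pp).coprime_iff_not_dvd]
    intro hdvd
    have h8 : (P.p : ℤ) ∣ 8 := by
      have h1 : (P.p : ℤ) ∣ 2 * ((P.p : ℤ) * e) := ⟨2 * e, by ring⟩
      have h2 : (8 : ℤ) = 2 * ((P.p : ℤ) * e) - 2 * ((P.p : ℤ) * e - 4) := by ring
      rw [h2]
      exact dvd_sub h1 hdvd
    have h8' : P.p ∣ 8 := by exact_mod_cast h8
    have hle : P.p ≤ 8 := Nat.le_of_dvd (by norm_num) h8'
    have hpp := P.pp
    interval_cases h : P.p <;> simp_all (config := {decide := true})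
  · have h4 : P.freyCurve.a₄ = -((P.a : ℚ) ^ P.p) * ((P.b : ℚ) ^ P.p) / 16 := rfl
    rw [h4]
    simp only [map_div₀, map_mul, map_neg, map_pow, map_intCast, Valuation.map_neg]
    rw [hva, hvb', one_pow, one_mul]
    have h16 : A.valuation (algebraMap ℚ Qb 16) = A.valuation (2 : Qb) ^ 4 := by
      rw [← map_pow]
      congr 1
      rw [map_ofNat]
      norm_num
    rw [h16, ← pow_mul, zpow_sub₀ (val_two_ne_zero A)]
    congr 1
    · rw [← zpow_natCast]
      congr 1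
      push_cast
      ring

end Fermat.Agent.EC.NF.TwoAdic
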