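/-
EC / NF package: valuations of rational numbers (and of the coefficient `a₄` of the Frey curve)
with respect to a valuation of residue characteristic 2 on a field of characteristic 0.
-/
import Mathlib
import Fermat.Agent.Lib.FrobeniusExists
import Fermat.Agent.Lib.Frey.Semistable

set_option autoImplicit false

namespace Fermat.Agent.EC.NF

section RatVal

variable {L : Type*} [Field L] [CharZero L] {Γ₀ : Type*} [LinearOrderedCommGroupWithZero Γ₀]
  (v : Valuation L Γ₀)

omit [CharZero L] in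
theorem val_int_le_one (m : ℤ) : v (m : L) ≤ 1 :=
  Fermat.Agent.Lib.FrobeniusExists.val_le_one_of_isIntegral v
    (by simpa using (isIntegral_algebraMap (R := ℤ) (A := L) (x := m)))

omit [CharZero L] in
/-- Odd integers are units in residue characteristic 2. -/
theorem val_odd_int (h2 : v (2 : L) < 1) {m : ℤ} (hm : ¬ (2 : ℤ) ∣ m) : v (m : L) = 1 := by
  have h2' : v ((2 : ℕ) : L) < 1 := by simpa using h2
  exact Fermat.Agent.Lib.FrobeniusExists.val_intCast_eq_one v Nat.prime_two h2' (by simpa using hm)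

omit [CharZero L] in
/-- Even integers are non-units in residue characteristic 2. -/
theorem val_even_int (h2 : v (2 : L) < 1) {m : ℤ} (hm : (2 : ℤ) ∣ m) : v (m : L) < 1 := by
  obtain ⟨k, rfl⟩ := hm
  push_cast
  rw [map_mul]
  calc v (2 : L) * v (k : L) ≤ v (2 : L) * 1 := by gcongr; exact val_int_le_one v k
    _ = v (2 : L) := mul_one _
    _ < 1 := h2

omit [CharZero L] in
/-- The valuation of a nonzero integer is a power of `v 2`. -/
theorem int_val_two_pow (h2 : v (2 : L) < 1) {m : ℤ} (hm : m ≠ 0) :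
    ∃ k : ℕ, v (m : L) = v (2 : L) ^ k := by
  have hm' : m.natAbs ≠ 0 := Int.natAbs_ne_zero.mpr hm
  obtain ⟨k, m', hodd, hmm⟩ := Nat.exists_eq_two_pow_mul_odd hm'
  refine ⟨k, ?_⟩
  have hm'v : v ((m' : ℤ) : L) = 1 := by
    apply val_odd_int v h2
    intro hdvd
    have : 2 ∣ m' := by exact_mod_cast hdvd
    exact (Nat.not_even_iff_odd.mpr hodd) (even_iff_two_dvd.mpr this)
  have habs : v ((m.natAbs : ℤ) : L) = v (2 : L) ^ k := by
    rw [hmm]
    push_cast
    rw [map_mul, map_pow]
    have : v (m' : L) = 1 := by simpa using hm'v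
    rw [this, mul_one]
  rcases Int.natAbs_eq m with h | h
  · rw [h]; exact habs
  · rw [h]
    push_cast
    rw [Valuation.map_neg]
    simpa using habs

/-- A rational number which is integral at a valuation of residue characteristic 2 is congruent
to `0` or `1`. -/
theorem rat_residue_two (h2 : v (2 : L) < 1) (r : ℚ) (hr : v (r : L) ≤ 1) :
    v (r : L) < 1 ∨ v ((r : L) - 1) < 1 := by
  have hden0 : (r.den : L) ≠ 0 := by exact_mod_cast r.den_ne_zero
  have hcast : (r : L) = (r.num : L) / (r.den : L) := Rat.cast_def r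
  by_cases hd : (2 : ℤ) ∣ (r.den : ℤ)
  · -- impossible: the denominator is even, hence the numerator is odd
    exfalso
    have hnum : ¬ (2 : ℤ) ∣ r.num := by
      intro hn
      have h1 : 2 ∣ r.num.natAbs := Int.natCast_dvd.mp (by simpa using hn)
      have h2' : 2 ∣ r.den := by exact_mod_cast hd
      have := Nat.Coprime.eq_one_of_dvd (Nat.Coprime.coprime_dvd_left h1 r.reduced) h2'
      omega
    have hvn : v (r.num : L) = 1 := val_odd_int v h2 hnum
    have hvd : v ((r.den : ℤ) : L) < 1 := val_even_int v h2 hd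
    have hvd' : v (r.den : L) < 1 := by simpa using hvd
    have hvd0 : 0 < v (r.den : L) := by rw [Valuation.pos_iff]; exact hden0
    rw [hcast, map_div₀, hvn, one_div] at hr
    have : 1 < (v (r.den : L))⁻¹ := (one_lt_inv₀ hvd0).mpr hvd'
    exact absurd hr (not_le.mpr this)
  · have hvd : v ((r.den : ℤ) : L) = 1 := val_odd_int v h2 hd
    have hvd' : v (r.den : L) = 1 := by simpa using hvd
    by_cases hn : (2 : ℤ) ∣ r.num
    · left
      rw [hcast, map_div₀, hvd', div_one]
      exact val_even_int v h2 hn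
    · right
      have e : (r : L) - 1 = ((r.num - (r.den : ℤ) : ℤ) : L) / (r.den : L) := by
        rw [hcast]
        push_cast
        field_simp
      rw [e, map_div₀, hvd', div_one]
      apply val_even_int v h2
      have h1 : r.num % 2 = 1 := by omega
      have h2' : (r.den : ℤ) % 2 = 1 := by omega
      omega

/-- The valuation of a nonzero rational number is an integer power of `v 2`. -/
theorem rat_val_zpow (h2 : v (2 : L) < 1) (r : ℚ) (hr : r ≠ 0) :
    ∃ m : ℤ, v (r : L) = v (2 : L) ^ m := by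
  have hden0 : (r.den : L) ≠ 0 := by exact_mod_cast r.den_ne_zero
  have h20 : v (2 : L) ≠ 0 := by
    rw [Valuation.ne_zero_iff]; exact two_ne_zero
  obtain ⟨k, hk⟩ := int_val_two_pow v h2 (Rat.num_ne_zero.mpr hr)
  obtain ⟨j, hj⟩ := int_val_two_pow v h2 (m := (r.den : ℤ)) (by exact_mod_cast r.den_ne_zero)
  have hj' : v (r.den : L) = v (2 : L) ^ j := by simpa using hj
  refine ⟨(k : ℤ) - j, ?_⟩
  rw [Rat.cast_def r, map_div₀, hk, hj', zpow_sub₀ h20, zpow_natCast, zpow_natCast]

/-- The coefficient `a₄ = -a^p b^p / 16` of the Frey curve has valuation `(v 2)^n` with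
`n = p · v₂(b) - 4 > 0` and `p ∤ 2 n`. -/
theorem frey_val_a₄ (P : FreyPackage) (h2 : v (2 : L) < 1) :
    ∃ n : ℕ, 0 < n ∧ ¬ P.p ∣ 2 * n ∧ v ((P.freyCurve.a₄ : ℚ) : L) = v (2 : L) ^ n := by
  have h20 : v (2 : L) ≠ 0 := by
    rw [Valuation.ne_zero_iff]; exact two_ne_zero
  have h2pos : 0 < v (2 : L) := zero_lt_iff.mpr h20
  -- `a` is odd
  have ha_odd : ¬ (2 : ℤ) ∣ P.a := by
    intro h
    have h4 := Fermat.Agent.Frey.four_dvd_one_add_a_pow P
    have h2a : (2 : ℤ) ∣ P.a ^ P.p := dvd_pow h P.hp0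
    have h2' : (2 : ℤ) ∣ 1 + P.a ^ P.p := Dvd.dvd.trans (by norm_num) h4
    have : (2 : ℤ) ∣ 1 := (Int.dvd_add_left h2a).mp h2'
    omega
  have hva : v ((P.a : ℤ) : L) = 1 := val_odd_int v h2 ha_odd
  -- `b = 2^t * b'` with `b'` odd, `t ≥ 1`
  obtain ⟨t, ht⟩ := int_val_two_pow v h2 P.hb0
  have hvb_lt : v ((P.b : ℤ) : L) < 1 := val_even_int v h2 (Fermat.Agent.Frey.two_dvd_b P)
  have ht1 : 1 ≤ t := by
    by_contra hcon
    have : t = 0 := by omega
    rw [this, pow_zero] at ht
    rw [ht] at hvb_lt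
    exact lt_irrefl _ hvb_lt
  have hp5 := P.hp5
  have hpt : 5 ≤ P.p * t := by
    calc 5 ≤ P.p := hp5
      _ = P.p * 1 := (mul_one _).symm
      _ ≤ P.p * t := Nat.mul_le_mul_left _ ht1
  refine ⟨P.p * t - 4, by omega, ?_, ?_⟩
  · intro hdvd
    have h1 : P.p ∣ 2 * (P.p * t) - 8 := by
      have : 2 * (P.p * t - 4) = 2 * (P.p * t) - 8 := by omega
      rwa [this] at hdvd
    have h3 : P.p ∣ 2 * (P.p * t) := ⟨2 * t, by ring⟩
    have h8 : P.p ∣ 8 := by
      have := (Nat.dvd_sub_iff_right (by omega : 8 ≤ 2 * (P.p * t)) h3).mp h1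
      exact this
    have hle : P.p ≤ 8 := Nat.le_of_dvd (by norm_num) h8
    have hpp := P.pp
    interval_cases P.p <;> simp_all (config := { decide := true })
  · have ha₄ : (P.freyCurve.a₄ : ℚ) = -((P.a : ℚ) ^ P.p) * ((P.b : ℚ) ^ P.p) / 16 := rfl
    have e : ((P.freyCurve.a₄ : ℚ) : L) = -((P.a : L) ^ P.p) * ((P.b : L) ^ P.p) / 16 := by
      rw [ha₄]; push_cast; ring
    have h16 : v (16 : L) = v (2 : L) ^ 4 := by
      rw [← map_pow]; norm_num
    have hva' : v (P.a : L) = 1 := by simpa using hva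
    have hvb' : v (P.b : L) = v (2 : L) ^ t := by simpa using ht
    rw [e, map_div₀, map_mul, Valuation.map_neg, map_pow, map_pow, hva', hvb', one_pow, one_mul,
      h16, ← pow_mul, mul_comm t P.p]
    rw [div_eq_iff (pow_ne_zero 4 h20), ← pow_add]
    congr 1
    omega

end RatVal

end Fermat.Agent.EC.NF
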